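import Fermat.Agent.OrderDensity.Translations
import Fermat.Agent.Root.SummaryTateIsogenyAll
import Fermat.Agent.Root.SummarySubgroupDetectionAll

/-!
# Kummer theory of independent families at every prime

Galois spans all matrices over `ℚ_p` on the Tate module, so some `p ^ C` times every integral matrix
is a combination of elements of Galois: the coordinates of the translations of the `pᴹ`-th parts of
an independent family form, up to `p ^ C`, a lattice in `ℤ_p^ι` containing `p ^ M`. No elementary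
divisor of it is divisible by a large power of `p`, as the translations of a primitive combination
are not killed by `p ^ (M - B)`; so all translations but a bounded part occur.
-/

set_option autoImplicit false
set_option linter.style.haveILetI false

noncomputable section

open Matrix WeierstrassCurve FA.Frob FA.EC FA.PointDiv FA.RT.Tate
open scoped WeierstrassCurve.Affine Classical

local notation "Qb" => AlgebraicClosure ℚ
local notation "GQ" => AlgebraicClosure ℚ ≃ₐ[ℚ] AlgebraicClosure ℚ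
local notation "M2" => Matrix (Fin 2) (Fin 2)

namespace FA.SubgroupDetection

variable {W : WeierstrassCurve ℤ} [(ratCurve W).IsElliptic] {p : ℕ} [hp : Fact p.Prime]

/-- The parametrisation turns scalars into multiples. -/
theorem phi_smul (B : TateBasis p W) (n : ℕ) (c : ℤ_[p]) (v : Fin 2 → ℤ_[p]) :
    B.φ n (c • v) = (PadicInt.toZModPow n c).val • B.φ n v := by
  have : NeZero (p ^ n) := ⟨pow_ne_zero _ hp.out.ne_zero⟩
  rw [← map_nsmul, B.phi_eq_iff]
  intro i
  rw [Pi.smul_apply, Pi.smul_apply, smul_eq_mul, nsmul_eq_mul, map_mul, map_mul, map_natCast,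
    ZMod.natCast_zmod_val]

/-- **Integral matrices up to `p ^ C`**: what is stable under Galois is stable under `p ^ C` times
every matrix. -/
theorem exists_bound_span (B : TateBasis p W) {ι : Type*} :
    ∃ C : ℕ, ∀ (M : ℕ) (S : AddSubgroup (ι → Pts W)),
      (∀ σ : GQ, ∀ s ∈ S, (fun i => σ • s i) ∈ S) → ∀ v : ι → Fin 2 → ℤ_[p],
        (fun i => B.φ M (v i)) ∈ S → ∀ k l : Fin 2,
          (fun i => B.φ M ((p : ℤ_[p]) ^ C • Pi.single k (v i l))) ∈ S := by
  let T : Submodule ℤ_[p] (M2 ℤ_[p]) :=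
    { carrier := {m | ∀ (M : ℕ) (S : AddSubgroup (ι → Pts W)),
        (∀ σ : GQ, ∀ s ∈ S, (fun i => σ • s i) ∈ S) → ∀ v : ι → Fin 2 → ℤ_[p],
          (fun i => B.φ M (v i)) ∈ S → (fun i => B.φ M (m *ᵥ v i)) ∈ S}
      zero_mem' := fun M S _ v _ => by
        simp only [zero_mulVec, map_zero]; exact zero_mem S
      add_mem' := fun {m n} hm hn M S hS v hv => by
        simp only [add_mulVec, map_add]; exact add_mem (hm M S hS v hv) (hn M S hS v hv)
      smul_mem' := fun c m hm M S hS v hv => by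
        simp only [smul_mulVec, phi_smul]; exact S.nsmul_mem (hm M S hS v hv) _ }
  have hrep : ∀ σ, B.rep σ ∈ T := fun σ M S hS v hv => by
    simp only [← B.rep_spec]; exact hS σ _ hv
  let j : ℤ_[p] →+* ℚ_[p] := PadicInt.Coe.ringHom
  have hmul : ∀ m : M2 ℤ_[p], ∃ C : ℕ, (p : ℤ_[p]) ^ C • m ∈ T := fun m => by
    obtain ⟨c, hc⟩ := Finsupp.mem_span_range_iff_exists_finsupp.mp
      (FA.TateIsogenyAll.span_rep_eq_top B ▸ (Submodule.mem_top (x := j.mapMatrix m)))
    obtain ⟨b, hb⟩ := IsLocalization.exist_integer_multiples (nonZeroDivisors ℤ_[p]) c.support c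
    choose d hd using hb
    have hb0 : (b : ℤ_[p]) ≠ 0 := nonZeroDivisors.coe_ne_zero b
    obtain ⟨u, n, hu⟩ : ∃ (u : ℤ_[p]ˣ) (n : ℕ), (b : ℤ_[p]) = u * (p : ℤ_[p]) ^ n :=
      ⟨_, _, PadicInt.unitCoeff_spec hb0⟩
    refine ⟨n, ?_⟩
    have he : (b : ℤ_[p]) • m = ∑ σ ∈ c.support.attach, d σ.1 σ.2 • B.rep σ.1 := by
      refine Matrix.map_injective (f := j) Subtype.val_injective ?_
      show j.mapMatrix _ = j.mapMatrix _
      rw [map_sum]
      have hsm : ∀ (a : ℤ_[p]) (x : M2 ℤ_[p]), j.mapMatrix (a • x) = j a • j.mapMatrix x :=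
        fun a x => Matrix.ext fun i k => by simp
      simp only [hsm]
      rw [← hc, Finsupp.sum, Finset.smul_sum, ← Finset.sum_attach c.support]
      refine Finset.sum_congr rfl fun σ _ => ?_
      rw [show j (d σ.1 σ.2) = _ from hd σ.1 σ.2, smul_smul, Algebra.smul_def (b : ℤ_[p]) (c σ.1)]
      rfl
    have hmem : (b : ℤ_[p]) • m ∈ T := he ▸ T.sum_mem fun σ _ => T.smul_mem _ (hrep σ.1)
    have := T.smul_mem (↑u⁻¹ : ℤ_[p]) hmem
    rwa [smul_smul, hu, ← mul_assoc, Units.inv_mul, one_mul] at this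
  choose C hC using fun x : Fin 2 × Fin 2 => hmul (Matrix.single x.1 x.2 1)
  refine ⟨∑ x, C x, fun M S hS v hv k l => ?_⟩
  obtain ⟨d, hd⟩ := Nat.exists_eq_add_of_le' (Finset.single_le_sum (f := C)
    (fun x _ => Nat.zero_le _) (Finset.mem_univ (k, l)))
  have h := T.smul_mem ((p : ℤ_[p]) ^ d) (hC (k, l)) M S hS v hv
  simp only [smul_smul, ← pow_add, ← hd, smul_mulVec] at h
  convert h using 4 with i
  rw [Matrix.single_mulVec]
  funext r
  rcases eq_or_ne r k with rfl | hr <;> simp [*, Function.update]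

/-- **A lattice is large if primitive functionals are not nearly zero on it.** -/
theorem pow_smul_mem_of_primitive {ι : Type*} [Finite ι] (L : Submodule ℤ_[p] (ι → ℤ_[p]))
    {M B : ℕ} (hM : ∀ x, (p : ℤ_[p]) ^ M • x ∈ L)
    (hprim : ∀ f : (ι → ℤ_[p]) →ₗ[ℤ_[p]] ℤ_[p], (∀ x ∈ L, (p : ℤ_[p]) ^ (B + 1) ∣ f x) →
      ∀ x, (p : ℤ_[p]) ∣ f x) (x : ι → ℤ_[p]) :
    (p : ℤ_[p]) ^ B • x ∈ L := by
  obtain ⟨n, snf⟩ := Submodule.smithNormalForm (Pi.basisFun ℤ_[p] ι) L
  have hpM : (p : ℤ_[p]) ^ M ≠ 0 := pow_ne_zero _ (Nat.cast_ne_zero.mpr hp.out.ne_zero)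
  suffices h : ∀ i, (p : ℤ_[p]) ^ B • snf.bM i ∈ L by
    let _ := Fintype.ofFinite ι
    rw [← snf.bM.sum_repr x, Finset.smul_sum]
    refine L.sum_mem fun i _ => ?_
    rw [smul_comm]
    exact L.smul_mem _ (h i)
  intro i
  obtain ⟨k, rfl⟩ : i ∈ Set.range snf.f := by
    by_contra hi
    have h := snf.repr_eq_zero_of_notMem_range ⟨_, hM (snf.bM i)⟩ hi
    simp only [map_smul, Module.Basis.repr_self, Finsupp.smul_single, smul_eq_mul, mul_one,
      Finsupp.single_eq_same] at h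
    exact hpM h
  have ha : snf.a k ≠ 0 := fun h => snf.bN.ne_zero k (Subtype.ext (by
    rw [snf.snf k, h, zero_smul]; rfl))
  obtain ⟨u, v, hu⟩ : ∃ (u : ℤ_[p]ˣ) (v : ℕ), snf.a k = u * (p : ℤ_[p]) ^ v :=
    ⟨_, _, PadicInt.unitCoeff_spec ha⟩
  have hle : v ≤ B := by
    by_contra hlt
    have hdvd : ∀ y ∈ L, (p : ℤ_[p]) ^ (B + 1) ∣ snf.bM.coord (snf.f k) y := fun y hy => by
      rw [Module.Basis.coord_apply, show y = ((⟨y, hy⟩ : L) : ι → ℤ_[p]) from rfl,
        snf.repr_apply_embedding_eq_repr_smul, map_smul, Finsupp.smul_apply, smul_eq_mul, hu]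
      exact (pow_dvd_pow _ (Nat.succ_le_of_lt (not_le.mp hlt))).mul_left _ |>.mul_right _
    have h := hprim (snf.bM.coord (snf.f k)) hdvd (snf.bM (snf.f k))
    rw [Module.Basis.coord_apply, Module.Basis.repr_self, Finsupp.single_eq_same] at h
    exact PadicInt.prime_p.not_dvd_one h
  have e : (p : ℤ_[p]) ^ B • snf.bM (snf.f k) =
      ((p : ℤ_[p]) ^ (B - v) * ↑u⁻¹) •
        ((snf.bN k : L) : ι → ℤ_[p]) := by
    conv_rhs => rw [snf.snf k, smul_smul, hu]
    congr 1
    rw [mul_assoc, ← mul_assoc (↑u⁻¹ : ℤ_[p]), Units.inv_mul, one_mul,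
      ← pow_add, Nat.sub_add_cancel hle]
  rw [e]
  exact L.smul_mem _ (snf.bN k).2

/-- In an independent family `p ^ n R = b (∑ aᵢ Pᵢ)`, `a` primitive, forces `p ^ n` to divide `b`
times a constant. -/
theorem exists_dvd_mul_family {H : Type*} [AddCommGroup H] [AddGroup.FG H] {ι : Type*} [Fintype ι]
    {P : ι → H} (hP : LinearIndependent ℤ P) :
    ∃ c : ℤ, c ≠ 0 ∧ ∀ a : ι → ℤ, (∃ i, ¬ (p : ℤ) ∣ a i) → ∀ (n : ℕ) (b : ℤ) (R : H),
      ((p ^ n : ℕ) : ℤ) • R = b • (∑ i, a i • P i) → ((p ^ n : ℕ) : ℤ) ∣ b * c := by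
  haveI : Module.Finite ℤ H := Module.Finite.iff_addGroup_fg.mpr inferInstance
  set S := Submodule.span ℤ (Set.range P)
  set T := Submodule.torsion ℤ (H ⧸ S)
  haveI : Finite T := Module.finite_of_fg_torsion T Submodule.torsion_isTorsion
  refine ⟨Nat.card T, Int.natCast_ne_zero.mpr Nat.card_pos.ne',
    fun a ⟨i, hi⟩ n b R hR => ?_⟩
  have hpn : ((p ^ n : ℕ) : ℤ) ≠ 0 := Int.natCast_ne_zero.mpr (pow_ne_zero _ hp.out.ne_zero)
  have hmemS : b • ∑ i, a i • P i ∈ S := S.smul_mem _ (Submodule.sum_mem _ fun j _ =>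
    Submodule.smul_mem _ _ (Submodule.subset_span ⟨j, rfl⟩))
  have hT : (Submodule.Quotient.mk R : H ⧸ S) ∈ T := by
    refine ⟨⟨_, mem_nonZeroDivisors_of_ne_zero hpn⟩, ?_⟩
    show ((p ^ n : ℕ) : ℤ) • (Submodule.Quotient.mk R : H ⧸ S) = 0
    rwa [← Submodule.Quotient.mk_smul, Submodule.Quotient.mk_eq_zero, hR]
  have hD : Nat.card T • R ∈ S := by
    rw [← Submodule.Quotient.mk_eq_zero, Submodule.Quotient.mk_smul]
    exact congrArg Subtype.val (card_nsmul_eq_zero' (x := (⟨_, hT⟩ : T)))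
  obtain ⟨c, hc⟩ := (Submodule.mem_span_range_iff_exists_fun ℤ).mp hD
  have h0 : ∑ j, (((p ^ n : ℕ) : ℤ) * c j - (Nat.card T : ℤ) * b * a j) • P j = 0 := by
    simp only [sub_smul, mul_smul, Finset.sum_sub_distrib, ← Finset.smul_sum, hc, ← hR,
      natCast_zsmul]
    rw [smul_comm, sub_self]
  have hi' := Fintype.linearIndependent_iff.mp hP _ h0 i
  have hcop : IsCoprime (((p ^ n : ℕ) : ℤ)) (a i) := by
    rw [Nat.cast_pow]
    exact ((Prime.coprime_iff_not_dvd (Nat.prime_iff_prime_int.mp hp.out)).mpr hi).pow_left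
  refine hcop.dvd_of_dvd_mul_right ⟨c i, ?_⟩
  linear_combination -hi'

variable (W)

/-- **Kummer theory of an independent family at every prime**: for a constant `B` every family of
translations of `pᴹ`-th parts by points killed by `p ^ (M - B)` is induced by an element fixing
`E[pᴹ]`. -/
theorem exists_bound_translations_indep {ι : Type*} [Fintype ι]
    {P : ι → (ratCurve W).toAffine.Point} (hP : LinearIndependent ℤ P) :
    ∃ B : ℕ, ∀ (M : ℕ) (Q : ι → ((ratCurve W).toAffine⁄Qb).Point),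
      (∀ i, p ^ M • Q i = up W (P i)) →
      ∀ t : ι → ((ratCurve W).toAffine⁄Qb).Point, (∀ i, p ^ (M - B) • t i = 0) → ∃ g : GQ,
        (∀ y : ((ratCurve W).toAffine⁄Qb).Point, p ^ M • y = 0 → g • y = y) ∧
          ∀ i, g • Q i = Q i + t i := by
  haveI := FA.MordellWeil.mordell (ratCurve W)
  obtain ⟨c, hc, hdvd⟩ := exists_dvd_mul_family (p := p) hP
  obtain ⟨B₀, hB₀⟩ := FA.OrderDensity.exists_bound_translation_ne_of W (p := p) hc
  obtain ⟨Bt⟩ := exists_tateBasis (p := p) W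
  obtain ⟨C, hC⟩ := exists_bound_span Bt (ι := ι)
  refine ⟨B₀ + 2 * C, fun M Q hQ t ht => ?_⟩
  rcases Nat.lt_or_ge M (B₀ + 2 * C) with hM | hM
  · refine ⟨1, fun y _ => one_smul _ _, fun i => ?_⟩
    have := ht i
    rw [Nat.sub_eq_zero_of_le hM.le, pow_zero, one_nsmul] at this
    rw [one_smul, this, add_zero]
  set act := FA.Bashmakov.pointAct (ratCurve W)
  have hd : ∀ i (σ : GQ), p ^ M • (σ • Q i - Q i) = 0 := fun i σ => by
    rw [nsmul_sub, ← smul_nat, hQ, smul_up, sub_self]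
  have hkill : ∀ (i) {g : GQ} {v : ((ratCurve W).toAffine⁄Qb).Point},
      act g (Q i) = Q i + v → p ^ M • v = 0 := fun i {g v} e => by
    have := hd i g
    rwa [show g • Q i = Q i + v from e, add_sub_cancel_left] at this
  let S : AddSubgroup (ι → ((ratCurve W).toAffine⁄Qb).Point) :=
    { carrier := {d | ∃ g : GQ, (∀ y, p ^ M • y = 0 → act g y = y) ∧
        ∀ i, act g (Q i) = Q i + d i}
      zero_mem' := ⟨1, fun y _ => by rw [map_one]; rfl, fun i => by
        rw [map_one, Pi.zero_apply, add_zero]; rfl⟩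
      add_mem' := fun {v w} ⟨g, hg, hgQ⟩ ⟨h, hh, hhQ⟩ =>
        ⟨g * h, fun y hy => by rw [FA.Bashmakov.act_mul, hh y hy, hg y hy], fun i => by
          rw [FA.Bashmakov.act_mul, hhQ, map_add, hgQ, hg (w i) (hkill i (hhQ i)), Pi.add_apply,
            add_assoc]⟩
      neg_mem' := fun {v} ⟨g, hg, hgQ⟩ => by
        have hg' : ∀ y, p ^ M • y = 0 → act g⁻¹ y = y := fun y hy => by
          conv_lhs => rw [← hg y hy]
          rw [FA.Bashmakov.act_inv_act]
        refine ⟨g⁻¹, hg', fun i => ?_⟩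
        have e := congrArg (act g⁻¹) (hgQ i)
        rw [FA.Bashmakov.act_inv_act, map_add, hg' (v i) (hkill i (hgQ i))] at e
        rw [Pi.neg_apply, ← sub_eq_add_neg, eq_sub_iff_add_eq]
        exact e.symm }
  have hS : ∀ σ : GQ, ∀ v ∈ S, (fun i => σ • v i) ∈ S := by
    rintro σ v ⟨g, hg, hgQ⟩
    have hinv : ∀ y, act σ (act σ⁻¹ y) = y := fun y => by
      simpa using FA.Bashmakov.act_inv_act act σ⁻¹ y
    refine ⟨σ * g * σ⁻¹, fun y hy => ?_, fun i => ?_⟩
    · rw [FA.Bashmakov.act_mul, FA.Bashmakov.act_mul,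
        hg _ (by rw [← map_nsmul, hy, map_zero]), hinv]
    · rw [FA.Bashmakov.act_mul, FA.Bashmakov.act_mul,
        show act σ⁻¹ (Q i) = Q i + (act σ⁻¹ (Q i) - Q i) by rw [add_sub_cancel], map_add, hgQ,
        hg (act σ⁻¹ (Q i) - Q i) (hd i σ⁻¹), add_right_comm, add_sub_cancel, map_add, hinv]
      rfl
  let L : Submodule ℤ_[p] (ι → ℤ_[p]) :=
    { carrier := {x | (fun i => Bt.φ M ((p : ℤ_[p]) ^ C • Pi.single 0 (x i))) ∈ S}
      zero_mem' := by
        show (fun i => _) ∈ S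
        simp only [Pi.zero_apply, Pi.single_zero, smul_zero, map_zero]; exact zero_mem S
      add_mem' := fun {x y} hx hy => by
        show (fun i => _) ∈ S
        simp only [Pi.add_apply, Pi.single_add, smul_add, map_add]; exact add_mem hx hy
      smul_mem' := fun a x hx => by
        have e : (fun i => Bt.φ M ((p : ℤ_[p]) ^ C • Pi.single 0 ((a • x) i))) =
            (PadicInt.toZModPow M a).val •
              fun i => Bt.φ M ((p : ℤ_[p]) ^ C • Pi.single 0 (x i)) := funext fun i => by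
          rw [Pi.smul_apply, Pi.smul_apply, Pi.single_smul, smul_comm, phi_smul]
        show (fun i => _) ∈ S
        rw [e]
        exact S.nsmul_mem hx _ }
  have hp0 : ∀ (v : Fin 2 → ℤ_[p]), Bt.φ M ((p : ℤ_[p]) ^ M • v) = 0 := fun v => by
    rw [← Nat.cast_pow, Nat.cast_smul_eq_nsmul, map_nsmul, Bt.nsmul_phi]
  have hlat : ∀ x, (p : ℤ_[p]) ^ B₀ • x ∈ L := by
    refine pow_smul_mem_of_primitive L (M := M) (fun x => ?_) fun f hf => by_contra fun hcon => ?_
    · show (fun i => _) ∈ S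
      simp only [Pi.smul_apply, Pi.single_smul, smul_comm ((p : ℤ_[p]) ^ C), hp0]
      exact zero_mem S
    push Not at hcon
    obtain ⟨x, hx⟩ := hcon
    choose a ha using fun i => (⟨_, ZMod.natCast_zmod_val _⟩ :
      ∃ a : ℕ, (a : ZMod (p ^ (M + 1))) = PadicInt.toZModPow (M + 1) (f (Pi.single i 1)))
    have hdiv : ∀ i, (p : ℤ_[p]) ^ (M + 1) ∣ f (Pi.single i 1) - (a i : ℤ_[p]) := fun i => by
      rw [← Ideal.mem_span_singleton, ← PadicInt.ker_toZModPow, RingHom.mem_ker, map_sub,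
        map_natCast, ha, sub_self]
    have hex : ∃ i, ¬ (p : ℤ) ∣ ((a i : ℕ) : ℤ) := by
      by_contra hall
      push Not at hall
      refine hx ?_
      rw [LinearMap.pi_apply_eq_sum_univ f x]
      refine Finset.dvd_sum fun i _ => dvd_mul_of_dvd_right ?_ _
      rw [show (fun j => if i = j then (1 : ℤ_[p]) else 0) = Pi.single i 1 from
        funext fun j => by simp [Pi.single_apply, eq_comm],
        ← sub_add_cancel (f (Pi.single i 1)) (a i : ℤ_[p])]
      refine dvd_add ((dvd_pow_self _ M.succ_ne_zero).trans (hdiv i)) ?_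
      exact_mod_cast map_dvd (Nat.castRingHom ℤ_[p]) (Int.natCast_dvd_natCast.mp (hall i))
    have hQa : p ^ M • (∑ i, (a i : ℤ) • Q i) = up W (∑ i, (a i : ℤ) • P i) := by
      rw [map_sum, Finset.smul_sum]
      exact Finset.sum_congr rfl fun i _ => by rw [smul_comm, hQ, map_zsmul]
    obtain ⟨g, hg, hne⟩ := hB₀ _ (hdvd _ hex) M (by omega) _ hQa
    choose v hv using fun i => Bt.surj M _ (hd i g)
    have hvS : (fun i => Bt.φ M (v i)) ∈ S := ⟨g, hg, fun i => by
      show _ = Q i + Bt.φ M (v i)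
      rw [hv i, add_sub_cancel]; rfl⟩
    have hrow : ∀ l : Fin 2, (fun i => v i l) ∈ L := fun l => hC M S hS v hvS 0 l
    refine hne ?_
    have hsum : ∀ z : ι → ℤ, g • (∑ i, z i • Q i) = ∑ i, z i • (g • Q i) := fun z =>
      (map_sum (act g) _ _).trans (Finset.sum_congr rfl fun i _ => map_zsmul _ _ _)
    rw [hsum, ← Finset.sum_sub_distrib]
    simp only [natCast_zsmul]
    have e : ∀ i, a i • g • Q i - a i • Q i = Bt.φ M (a i • v i) := fun i => by
      rw [map_nsmul, hv i]; exact (nsmul_sub _ _ _).symm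
    rw [Finset.sum_congr rfl fun i _ => e i]
    refine Eq.trans ?_ ((Bt.ker M (p ^ (M - B₀) • ∑ i, a i • v i)).mpr ?_)
    · rw [map_nsmul, map_sum]
    intro l
    rw [Pi.smul_apply, Finset.sum_apply, ← RingHom.mem_ker, PadicInt.ker_toZModPow,
      Ideal.mem_span_singleton, nsmul_eq_mul, Nat.cast_pow]
    have hf' := hf _ (hrow l)
    rw [LinearMap.pi_apply_eq_sum_univ f] at hf'
    have h3 : (p : ℤ_[p]) ^ (B₀ + 1) ∣ ∑ i, (a i • v i) l := by
      rw [← sub_sub_cancel (∑ i, v i l • f fun j => if i = j then (1 : ℤ_[p]) else 0)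
        (∑ i, (a i • v i) l)]
      refine dvd_sub hf' ?_
      rw [← Finset.sum_sub_distrib]
      refine Finset.dvd_sum fun i _ => ?_
      rw [show (fun j => if i = j then (1 : ℤ_[p]) else 0) = Pi.single i 1 from
        funext fun j => by simp [Pi.single_apply, eq_comm], Pi.smul_apply, nsmul_eq_mul,
        smul_eq_mul, mul_comm (a i : ℤ_[p]), ← mul_sub]
      exact ((pow_dvd_pow _ (by omega)).trans (hdiv i)).mul_left _
    refine (pow_dvd_pow _ (show M ≤ M - B₀ + (B₀ + 1) by omega)).trans ?_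
    rw [pow_add]
    exact mul_dvd_mul_left _ h3
  choose u hu using fun i => exists_div W (pow_ne_zero (B₀ + 2 * C) hp.out.ne_zero) (t i)
  choose w hw using fun i => Bt.surj M (u i) (by
    rw [show M = M - (B₀ + 2 * C) + (B₀ + 2 * C) by omega, pow_add, mul_nsmul', hu, ht])
  have hgen : ∀ k : Fin 2,
      (fun i => Bt.φ M ((p : ℤ_[p]) ^ (B₀ + 2 * C) • Pi.single k (w i k))) ∈ S := fun k => by
    have h := hC M S hS (fun i => (p : ℤ_[p]) ^ C • Pi.single 0 ((p : ℤ_[p]) ^ B₀ • w i k))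
      (show (fun i => Bt.φ M ((p : ℤ_[p]) ^ C • Pi.single 0 ((p : ℤ_[p]) ^ B₀ • w i k))) ∈ S from
        hlat fun i => w i k) k 0
    have e : ∀ i, ((p : ℤ_[p]) ^ C • Pi.single k
        (((p : ℤ_[p]) ^ C • (Pi.single 0 ((p : ℤ_[p]) ^ B₀ • w i k) : Fin 2 → ℤ_[p])) 0) :
          Fin 2 → ℤ_[p]) = (p : ℤ_[p]) ^ (B₀ + 2 * C) • Pi.single k (w i k) := fun i => by
      rw [Pi.smul_apply, Pi.single_eq_same, smul_smul, ← Pi.single_smul, ← Pi.single_smul,
        smul_smul]
      congr 1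
      ring_nf
    simpa only [e] using h
  obtain ⟨g, hg, hgQ⟩ := add_mem (hgen 0) (hgen 1)
  refine ⟨g, hg, fun i => (hgQ i).trans (congrArg (Q i + ·) ?_)⟩
  rw [Pi.add_apply, ← map_add, ← smul_add,
    show Pi.single (0 : Fin 2) (w i 0) + Pi.single (1 : Fin 2) (w i 1) = w i from
      funext fun r => by fin_cases r <;> simp,
    ← Nat.cast_pow, Nat.cast_smul_eq_nsmul, map_nsmul, hw, hu]

end FA.SubgroupDetection

end
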