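import Fermat.Agent.MordellWeil.Structure
import Mathlib.LinearAlgebra.FreeModule.PID
import Mathlib.GroupTheory.OrderOfElement
import Mathlib.Tactic

/-!
# A torsion valued homomorphism separating a point from a subgroup

Let `R ∉ X`, `p R ∈ X` in a finitely generated group `H` mapped injectively to a group `A` in which
all points are divisible by `p` and all powers of `p` are orders. Some homomorphism `H → A` with
values of bounded `p`-power order agrees with the map on torsion up to order prime to `p` and sends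
`R` outside the image of `X`. In a basis adapted to the image of `X` in the free quotient, either it
kills the free part of `X` and then sees the torsion point separating `R` from `X`, or it is one
coordinate times a point of large order.
-/

set_option autoImplicit false
set_option linter.style.haveILetI false

noncomputable section

namespace FA.SubgroupDetection

variable {H A : Type*} [AddCommGroup H] [AddCommGroup A]

/-- Division by `p ^ v` where division by `p` is possible. -/
theorem exists_pow_div {p : ℕ} (hdiv : ∀ a : A, ∃ b, p • b = a) (v : ℕ) (a : A) :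
    ∃ b, p ^ v • b = a := by
  induction v generalizing a with
  | zero => exact ⟨a, by rw [pow_zero, one_nsmul]⟩
  | succ v ih =>
    obtain ⟨b, hb⟩ := hdiv a
    obtain ⟨c, hc⟩ := ih b
    exact ⟨c, by rw [pow_succ', mul_nsmul', hc, hb]⟩

/-- **Separation by a torsion valued homomorphism.** -/
theorem exists_separating_hom [AddGroup.FG H] (up : H →+ A) (hup : Function.Injective up) {p : ℕ}
    (hp : p.Prime) (hdiv : ∀ a : A, ∃ b, p • b = a)
    (hord : ∀ b : ℕ, ∃ w : A, addOrderOf w = p ^ b) {X : AddSubgroup H} {R : H} (hR : R ∉ X)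
    (hpR : p • R ∈ X) :
    ∃ ψ : H →+ A, (∃ a, ∀ z, p ^ a • ψ z = 0) ∧
      (∀ z, IsOfFinAddOrder z → ∃ m : ℕ, ¬ p ∣ m ∧ m • (up z - ψ z) = 0) ∧
      ∀ x ∈ X, ψ R ≠ ψ x := by
  classical
  obtain ⟨n, ⟨e⟩⟩ := FA.MordellWeil.exists_equiv_torsion_prod H
  let tf : H →+ (Fin n → ℤ) := (AddMonoidHom.snd _ _).comp e.toAddMonoidHom
  let sect : (Fin n → ℤ) →+ H := e.symm.toAddMonoidHom.comp (AddMonoidHom.inr _ _)
  let tt : H →+ H := AddMonoidHom.id H - sect.comp tf
  have htf : ∀ z, IsOfFinAddOrder z → tf z = 0 := fun z hz => funext fun i => by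
    obtain ⟨m, hm, hm0⟩ := isOfFinAddOrder_iff_nsmul_eq_zero.mp hz
    have h : m • tf z i = 0 := by rw [← Pi.smul_apply, ← map_nsmul, hm0, map_zero]; rfl
    exact (smul_eq_zero.mp h).resolve_left hm.ne'
  have htor : ∀ y, tf y = 0 → IsOfFinAddOrder y := fun y hy => by
    obtain ⟨m, hm, hm0⟩ := isOfFinAddOrder_iff_nsmul_eq_zero.mp (e y).1.2
    refine isOfFinAddOrder_iff_nsmul_eq_zero.mpr ⟨m, hm, e.injective ?_⟩
    rw [map_nsmul, map_zero]
    exact Prod.ext (Subtype.ext hm0) (by
      rw [Prod.smul_snd]; exact (congrArg _ hy).trans (nsmul_zero m))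
  have htt : ∀ z, IsOfFinAddOrder (tt z) := fun z => htor _ (by
    show tf (z - sect (tf z)) = 0
    rw [map_sub, sub_eq_zero]
    show tf z = (e (e.symm ((0 : AddCommGroup.torsion H), tf z))).2
    rw [e.apply_symm_apply])
  have hup' : ∀ {y : H}, up y = 0 → y = 0 := fun {y} hy => hup (hy.trans (map_zero up).symm)
  haveI : Module.Finite ℤ H := Module.Finite.iff_addGroup_fg.mpr inferInstance
  haveI : Finite (Submodule.torsion ℤ H) :=
    Module.finite_of_fg_torsion _ Submodule.torsion_isTorsion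
  obtain ⟨E, hE0, hE⟩ : ∃ E, E ≠ 0 ∧ ∀ z : H, IsOfFinAddOrder z → E • z = 0 := by
    refine ⟨Nat.card (Submodule.torsion ℤ H), Nat.card_pos.ne', fun z hz => ?_⟩
    obtain ⟨m, hm, hm0⟩ := isOfFinAddOrder_iff_nsmul_eq_zero.mp hz
    have hzT : z ∈ Submodule.torsion ℤ H :=
      ⟨⟨(m : ℤ), mem_nonZeroDivisors_of_ne_zero (by exact_mod_cast hm.ne')⟩, by
        show (m : ℤ) • z = 0; rw [natCast_zsmul, hm0]⟩
    exact congrArg Subtype.val (card_nsmul_eq_zero' (x := (⟨z, hzT⟩ : Submodule.torsion ℤ H)))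
  obtain ⟨r, N, hN, hEN⟩ := Nat.exists_eq_pow_mul_and_not_dvd hE0 p hp.ne_one
  obtain ⟨u, v, huv⟩ : IsCoprime (N : ℤ) ((p : ℤ) ^ r) := by
    rw [← Nat.cast_pow]
    exact Nat.isCoprime_iff_coprime.mpr (((hp.coprime_iff_not_dvd.mpr hN).symm).pow_right r)
  let π : H →+ A := (u * N) • up.comp tt
  have hπ : ∀ z, π z = (u * N : ℤ) • up (tt z) := fun _ => rfl
  have hπkill : ∀ z, p ^ r • π z = 0 := fun z => by
    rw [hπ, ← map_zsmul, ← map_nsmul, ← natCast_zsmul, ← mul_zsmul,
      show ((p ^ r : ℕ) : ℤ) * (u * N) = u * (E : ℤ) by rw [hEN]; push_cast; ring, mul_zsmul,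
      natCast_zsmul, hE _ (htt z), zsmul_zero, map_zero]
  have hπtor : ∀ z, IsOfFinAddOrder z → N • (up z - π z) = 0 := fun z hz => by
    have he : tt z = z := by
      show z - sect (tf z) = z
      rw [htf z hz, map_zero, sub_zero]
    rw [hπ, he, ← natCast_zsmul, ← map_zsmul up, ← map_sub, ← map_zsmul, zsmul_sub, ← mul_zsmul,
      ← sub_smul,
      show (N : ℤ) - (N : ℤ) * (u * N) = v * (E : ℤ) by
        rw [hEN]; push_cast; linear_combination -(N : ℤ) * huv, mul_zsmul, natCast_zsmul,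
      hE z hz, zsmul_zero, map_zero]
  -- a basis adapted to the free part of `X`
  obtain ⟨k, snf⟩ := Submodule.smithNormalForm (Pi.basisFun ℤ (Fin n)) (X.map tf).toIntSubmodule
  choose x hxX hx using fun i : Fin k => AddSubgroup.mem_map.mp (snf.bN i).2
  have hdec : ∀ z ∈ X, ∃ (c : Fin k → ℤ), IsOfFinAddOrder (z - ∑ i, c i • x i) ∧
      tf z = ∑ i, (c i * snf.a i) • snf.bM (snf.f i) := fun z hz => by
    set y : (X.map tf).toIntSubmodule := ⟨tf z, z, hz, rfl⟩
    have hy : tf z = ∑ i, snf.bN.repr y i • tf (x i) := by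
      have := congrArg Subtype.val (snf.bN.sum_repr y)
      rw [Submodule.coe_sum] at this
      exact this.symm.trans (Finset.sum_congr rfl fun i _ => by rw [Submodule.coe_smul, hx])
    refine ⟨fun i => snf.bN.repr y i, ?_, hy.trans (Finset.sum_congr rfl fun i _ => by
      rw [hx, snf.snf, smul_smul])⟩
    have h0 : tf (z - ∑ i, snf.bN.repr y i • x i) = 0 := by
      rw [map_sub, map_sum, hy, sub_eq_zero]
      exact Finset.sum_congr rfl fun i _ => (map_zsmul _ _ _).symm
    exact htor _ h0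
  by_cases hcase : ∃ z ∈ X, IsOfFinAddOrder (R - z)
  · -- kill the free part of `X`
    obtain ⟨x₀, hx₀, hT⟩ := hcase
    have hu : ∀ i : Fin k, ∃ (b : ℕ) (w : A), p ^ b • w = 0 ∧ snf.a i • w = -π (x i) := fun i => by
      have ha : snf.a i ≠ 0 := fun h => snf.bN.ne_zero i (Subtype.ext (by
        rw [snf.snf i, h, zero_smul]; rfl))
      obtain ⟨b, m, hm, hbm⟩ :=
        Nat.exists_eq_pow_mul_and_not_dvd (Int.natAbs_ne_zero.mpr ha) p hp.ne_one
      obtain ⟨w, hw⟩ := exists_pow_div hdiv b (-π (x i))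
      have hwk : p ^ (r + b) • w = 0 := by
        rw [pow_add, mul_nsmul', hw, smul_neg, hπkill, neg_zero]
      obtain ⟨s, t, hst⟩ : IsCoprime (snf.a i / (p : ℤ) ^ b) ((p : ℤ) ^ (r + b)) := by
        refine ((Prime.coprime_iff_not_dvd (Nat.prime_iff_prime_int.mp hp)).mpr
          fun hd => ?_).symm.pow_right
        refine hm (Int.natCast_dvd_natCast.mp ?_)
        have : (snf.a i / (p : ℤ) ^ b).natAbs = m := by
          rw [Int.natAbs_ediv_of_dvd (Int.natAbs_dvd_natAbs.mp (by
            rw [Int.natAbs_pow, Int.natAbs_natCast, hbm]; exact dvd_mul_right _ _)), hbm,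
            Int.natAbs_pow, Int.natAbs_natCast, Nat.mul_div_cancel_left _ (pow_pos hp.pos b)]
        rw [← this]
        exact Int.dvd_natAbs.mpr hd
      refine ⟨r + b, s • w, by rw [smul_comm, hwk, zsmul_zero], ?_⟩
      have hd : (p : ℤ) ^ b ∣ snf.a i := Int.natAbs_dvd_natAbs.mp (by
        rw [Int.natAbs_pow, Int.natAbs_natCast, hbm]; exact dvd_mul_right _ _)
      conv_lhs => rw [← mul_zsmul, ← Int.mul_ediv_cancel' hd,
        mul_assoc, mul_comm (snf.a i / _) s, eq_sub_of_add_eq hst, mul_sub, mul_one, sub_smul,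
        mul_comm ((p : ℤ) ^ b) (t * _), mul_assoc, ← pow_add, mul_zsmul, ← Nat.cast_pow,
        ← Nat.cast_pow, natCast_zsmul, natCast_zsmul, hw,
        show p ^ (r + b + b) • w = 0 by rw [add_comm (r + b), pow_add, mul_nsmul', hwk, nsmul_zero],
        zsmul_zero, sub_zero]
    choose b w hwk hw using hu
    let h : (Fin n → ℤ) →ₗ[ℤ] A := snf.bM.constr ℤ (Function.extend snf.f w 0)
    have hh : ∀ i, h (snf.bM (snf.f i)) = w i := fun i => by
      rw [Module.Basis.constr_basis, snf.f.injective.extend_apply]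
    refine ⟨π + h.toAddMonoidHom.comp tf, ⟨r + ∑ i, b i, fun z => ?_⟩,
      fun z hz => ⟨N, hN, ?_⟩, fun z hz heq => ?_⟩
    · show p ^ _ • (π z + h (tf z)) = 0
      rw [nsmul_add, pow_add, mul_comm, mul_nsmul', hπkill, nsmul_zero, zero_add, ← mul_comm,
        ← pow_add]
      have hz0 : ∀ j, p ^ (r + ∑ i, b i) • Function.extend snf.f w 0 j = 0 := fun j => by
        by_cases hj : ∃ i, snf.f i = j
        · obtain ⟨i, rfl⟩ := hj
          rw [snf.f.injective.extend_apply, ← Nat.sub_add_cancel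
            ((Finset.single_le_sum (f := b) (fun _ _ => Nat.zero_le _) (Finset.mem_univ i)).trans
              (Nat.le_add_left _ r)), pow_add, mul_nsmul', hwk, nsmul_zero]
        · rw [Function.extend_apply' _ _ _ hj, Pi.zero_apply, nsmul_zero]
      rw [Module.Basis.constr_apply_fintype, Finset.smul_sum]
      exact Finset.sum_eq_zero fun j _ => by rw [smul_comm, hz0, zsmul_zero]
    · show N • (up z - (π z + h (tf z))) = 0
      rw [htf z hz, map_zero, add_zero, hπtor z hz]
    -- `ψ X` is the image of the torsion of `X`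
    replace heq : π R + h (tf R) = π z + h (tf z) := heq
    obtain ⟨c, hc, hcz⟩ := hdec (z - x₀) (sub_mem hz hx₀)
    set s := z - x₀ - ∑ i, c i • x i with hs
    have hsX : s ∈ X := sub_mem (sub_mem hz hx₀) (sum_mem fun i _ => zsmul_mem (hxX i) _)
    have hψs : π (z - x₀) + h (tf (z - x₀)) = π s := by
      have e1 : ∑ i, h ((c i * snf.a i) • snf.bM (snf.f i)) = -∑ i, π (c i • x i) := by
        rw [← Finset.sum_neg_distrib]
        exact Finset.sum_congr rfl fun i _ => by
          rw [map_zsmul h, hh, mul_zsmul, hw, zsmul_neg, map_zsmul]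
      rw [hs, map_sub π _ (∑ i, c i • x i), map_sum π, hcz, map_sum h, e1]
      abel
    have hπeq : π (R - x₀) = π s := by
      rw [← hψs]
      have h1 : tf (R - x₀) = 0 := htf _ hT
      rw [map_sub, sub_eq_zero] at h1
      rw [map_sub π, map_sub π, map_sub tf, map_sub h, ← h1, eq_sub_of_add_eq heq]
      abel
    have hfin : IsOfFinAddOrder (R - x₀ - s) := by
      rw [sub_eq_add_neg]
      exact hT.add hc.neg
    have hNX : N • (R - x₀ - s) ∈ X := by
      have h0 : up (N • (R - x₀ - s)) = 0 := by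
        have h1 := hπtor _ hfin
        rw [map_sub π, hπeq, sub_self, sub_zero] at h1
        rw [map_nsmul]; exact h1
      rw [hup' h0]; exact zero_mem X
    have hpX : p • (R - x₀ - s) ∈ X := by
      rw [nsmul_sub, nsmul_sub]
      exact sub_mem (sub_mem hpR (X.nsmul_mem hx₀ _)) (X.nsmul_mem hsX _)
    obtain ⟨c₁, c₂, h12⟩ := Nat.isCoprime_iff_coprime.mpr (hp.coprime_iff_not_dvd.mpr hN)
    refine hR ?_
    have : R - x₀ - s ∈ X := by
      rw [← one_zsmul (R - x₀ - s), ← h12, add_zsmul, mul_zsmul, mul_zsmul, natCast_zsmul,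
        natCast_zsmul]
      exact add_mem (X.zsmul_mem hpX _) (X.zsmul_mem hNX _)
    simpa using add_mem (add_mem this hsX) hx₀
  -- one coordinate times a point of large order
  push Not at hcase
  obtain ⟨c, hc, hcR⟩ := hdec (p • R) hpR
  obtain ⟨i₀, hi₀⟩ : ∃ i, ¬ (p : ℤ) ∣ c i := by
    by_contra hall
    push Not at hall
    choose d hd using hall
    refine hcase (∑ i, d i • x i) (sum_mem fun i _ => zsmul_mem (hxX i) _) ?_
    obtain ⟨m, hm, hm0⟩ := isOfFinAddOrder_iff_nsmul_eq_zero.mp hc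
    refine isOfFinAddOrder_iff_nsmul_eq_zero.mpr ⟨m * p, Nat.mul_pos hm hp.pos, ?_⟩
    rw [mul_nsmul', nsmul_sub, Finset.smul_sum, ← hm0]
    refine congrArg (fun y => m • (p • R - y)) (Finset.sum_congr rfl fun i _ => ?_)
    rw [hd i, mul_zsmul, natCast_zsmul]
  set j := snf.f i₀
  set φ := snf.bM.coord j
  have hφX : ∀ z ∈ X, snf.a i₀ ∣ φ (tf z) := fun z hz => by
    obtain ⟨c', -, hc'⟩ := hdec z hz
    rw [hc', map_sum]
    refine Finset.dvd_sum fun i _ => ?_
    rw [map_smul, Module.Basis.coord_apply, Module.Basis.repr_self, smul_eq_mul]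
    rcases eq_or_ne i i₀ with rfl | hne
    · exact (dvd_mul_left _ _).mul_right _
    · rw [Finsupp.single_eq_of_ne (fun h => hne (snf.f.injective h).symm), mul_zero]
      exact dvd_zero _
  have hφR : (p : ℤ) * φ (tf R) = c i₀ * snf.a i₀ := by
    rw [show (p : ℤ) * φ (tf R) = φ (tf (p • R)) by rw [map_nsmul, map_nsmul, nsmul_eq_mul], hcR,
      map_sum, Finset.sum_eq_single i₀]
    · rw [map_smul, Module.Basis.coord_apply, Module.Basis.repr_self, Finsupp.single_eq_same,
        smul_eq_mul, mul_one]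
    · intro i _ hne
      rw [map_smul, Module.Basis.coord_apply, Module.Basis.repr_self,
        Finsupp.single_eq_of_ne (fun h => hne (snf.f.injective h).symm), smul_zero]
    · exact fun h => absurd (Finset.mem_univ _) h
  have ha : snf.a i₀ ≠ 0 := fun h => snf.bN.ne_zero i₀ (Subtype.ext (by
    rw [snf.snf i₀, h, zero_smul]; rfl))
  set b := (snf.a i₀).natAbs + r
  obtain ⟨w, hw⟩ := hord b
  have hwk : p ^ b • w = 0 := hw ▸ addOrderOf_nsmul_eq_zero w
  refine ⟨π + (zmultiplesHom A w).comp (φ.toAddMonoidHom.comp tf), ⟨r + b, fun z => ?_⟩,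
    fun z hz => ⟨N, hN, ?_⟩, fun z hz heq => ?_⟩
  · show p ^ (r + b) • (π z + φ (tf z) • w) = 0
    rw [nsmul_add, pow_add, mul_nsmul' (φ (tf z) • w), smul_comm (p ^ b), hwk, zsmul_zero,
      nsmul_zero, add_zero, mul_comm, mul_nsmul', hπkill, nsmul_zero]
  · show N • (up z - (π z + φ (tf z) • w)) = 0
    rw [htf z hz, map_zero, zero_zsmul, add_zero, hπtor z hz]
  replace heq : π R + φ (tf R) • w = π z + φ (tf z) • w := heq
  obtain ⟨y, hy⟩ := hφX z hz
  set D := φ (tf R) - φ (tf z) with hD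
  have h0 : (((p ^ r : ℕ) : ℤ) * D) • w = 0 := by
    rw [mul_zsmul, natCast_zsmul, hD, sub_smul,
      show φ (tf R) • w - φ (tf z) • w = π z - π R by linear_combination (norm := abel) heq,
      nsmul_sub, hπkill, hπkill, sub_self]
  rw [← addOrderOf_dvd_iff_zsmul_eq_zero, hw] at h0
  have hpD : (p : ℤ) * D = (c i₀ - p * y) * snf.a i₀ := by
    rw [hD, mul_sub, hφR, hy]; ring
  have h1 : ((p ^ b : ℕ) : ℤ) ∣ ((p ^ r : ℕ) : ℤ) * snf.a i₀ := by
    refine IsCoprime.dvd_of_dvd_mul_left ?_ (y := c i₀ - p * y) ?_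
    · rw [Nat.cast_pow]
      refine ((Prime.coprime_iff_not_dvd (Nat.prime_iff_prime_int.mp hp)).mpr
        fun hd => hi₀ ?_).pow_left
      simpa using dvd_add hd (dvd_mul_right (p : ℤ) y)
    · rw [mul_left_comm, ← hpD, ← mul_assoc, mul_comm ((p ^ r : ℕ) : ℤ), mul_assoc]
      exact h0.mul_left _
  rw [Int.natCast_dvd, Int.natAbs_mul, Int.natAbs_natCast,
    show b = (snf.a i₀).natAbs + r from rfl, pow_add, mul_comm,
    Nat.mul_dvd_mul_iff_left (pow_pos hp.pos r)] at h1
  exact absurd (Nat.le_of_dvd (Int.natAbs_pos.mpr ha) h1)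
    (not_le.mpr (Nat.lt_pow_self hp.one_lt))

end FA.SubgroupDetection

end
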