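import Fermat.Agent.Faltings.Lemma
import Fermat.Agent.ReducedGroups.ExponentRigidity

/-!
# Frobenius elements avoiding a set of density zero

By Chebotarev every class modulo an open normal subgroup is met by the Frobenius elements at a set
of primes of positive density, so at a prime outside any given set of density zero.
-/

set_option autoImplicit false

noncomputable section

open NumberField IsDedekindDomain FA.Frob
open scoped Pointwise

local notation "Qb" => AlgebraicClosure ℚ
local notation "GQ" => AlgebraicClosure ℚ ≃ₐ[ℚ] AlgebraicClosure ℚ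

namespace FA.SubgroupDetection

/-- The empty set and every finite set of primes have density zero. -/
theorem density_zero_of_finite {Z : Set (HeightOneSpectrum (𝓞 ℚ))} (hZ : Z.Finite) :
    Z.HasDirichletDensity 0 :=
  FA.TraceDist.hasDirichletDensity_congr NumberField.Set.hasDirichletDensity_empty hZ
    fun v hv => iff_of_false (Set.notMem_empty v) hv

/-- A set has density one exactly when its complement has density zero. -/
theorem density_one_iff {S : Set (HeightOneSpectrum (𝓞 ℚ))} :
    S.HasDirichletDensity 1 ↔ Sᶜ.HasDirichletDensity 0 := by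
  refine ⟨fun h => ?_, fun h => ?_⟩
  · simpa using FA.Supersingular.hasDirichletDensity_compl h
  · simpa using FA.Supersingular.hasDirichletDensity_compl h

/-- **Every Frobenius class is met outside a set of density zero** and outside a finite set. -/
theorem exists_frobenius_coset_avoid (N : Subgroup GQ) [N.Normal] (hN : IsOpen (N : Set GQ))
    (S : Finset ℕ) {Z : Set (HeightOneSpectrum (𝓞 ℚ))} (hZ : Z.HasDirichletDensity 0)
    (g : GQ ⧸ N) :
    ∃ q : ℕ, q.Prime ∧ q ∉ S ∧ (∀ v : HeightOneSpectrum (𝓞 ℚ),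
      Ideal.absNorm v.asIdeal = q → v ∉ Z) ∧ ∃ A : ValuationSubring Qb, A.LiesOverPrime q ∧
      ∃ σ : GQ, A.IsFrobeniusAt σ q ∧ (σ : GQ ⧸ N) = g := by
  classical
  have : Finite (GQ ⧸ N) := Subgroup.quotient_finite_of_isOpen N hN
  have := Fintype.ofFinite (GQ ⧸ N)
  have hd := FA.Chebotarev.hasDirichletDensity_frobSet (QuotientGroup.mk' N)
    (QuotientGroup.mk'_surjective N) (by rwa [QuotientGroup.ker_mk']) (X := {x | IsConj g x})
    fun y hy x => hy.trans (isConj_iff.mpr ⟨x, rfl⟩)
  have hd' := FA.ReducedGroups.density_sdiff_zero (FA.ReducedGroups.density_sdiff_zero hd hZ)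
    (density_zero_of_finite (FA.Supersingular.finite_absNorm_mem S))
  obtain ⟨v, ⟨hv, hvZ⟩, hvS⟩ : ((FA.Chebotarev.frobSet (QuotientGroup.mk' N) {x | IsConj g x} \
      Z) \ {v | Ideal.absNorm v.asIdeal ∈ S}).Nonempty := by
    by_contra hne
    rw [Set.not_nonempty_iff_eq_empty.mp hne] at hd'
    have : Nonempty {x : GQ ⧸ N | IsConj g x} := ⟨⟨g, IsConj.refl g⟩⟩
    exact (div_pos (Nat.cast_pos.mpr Nat.card_pos) (Nat.cast_pos.mpr Fintype.card_pos)).ne'
      (tendsto_nhds_unique hd' NumberField.Set.hasDirichletDensity_empty)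
  have hq := FA.Chebotarev.absNorm_prime v
  obtain ⟨A, hA⟩ := FA.Deform.exists_liesOverPrime hq
  obtain ⟨σ, hσ⟩ := FA.Deform.exists_isFrobeniusAt hq hA
  obtain ⟨c, hc⟩ := isConj_iff.mp (hv A hA σ hσ)
  obtain ⟨τ, hτ⟩ := QuotientGroup.mk_surjective c⁻¹
  refine ⟨_, hq, hvS, fun w hw => FA.PrimeDivisors.absNorm_injective hw ▸ hvZ, τ • A,
    FA.Density.liesOverPrime_smul hA τ, τ * σ * τ⁻¹, FA.Density.isFrobeniusAt_smul hσ τ, ?_⟩
  rw [QuotientGroup.mk_mul, QuotientGroup.mk_mul, QuotientGroup.mk_inv, hτ, inv_inv]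
  rw [show (σ : GQ ⧸ N) = c * g * c⁻¹ from hc.symm]
  group

end FA.SubgroupDetection

end
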