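import Fermat.Agent.SubgroupDetection.Translations
import Fermat.Agent.OrderDensity.Exact

/-!
# Prescribed `p`-parts of the reductions of independent points

For independent points `Pᵢ` and `Uᵢ ∈ E[pᵃ]` there are infinitely many primes `q` at which a
Frobenius fixes `E[pᵃ]` and the reductions of the `Pᵢ - Uᵢ` have order prime to `p`: a Frobenius
fixing enough torsion and enough parts of the `Pᵢ`, composed with translations, fixes `pᴸ`-th parts
of the `Pᵢ - Uᵢ` and no point of order `pᴸ`.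
-/

set_option autoImplicit false
set_option linter.style.haveILetI false

noncomputable section

open WeierstrassCurve FA.Frob FA.EC FA.PointDiv
open scoped WeierstrassCurve.Affine Classical

local notation "Qb" => AlgebraicClosure ℚ
local notation "GQ" => AlgebraicClosure ℚ ≃ₐ[ℚ] AlgebraicClosure ℚ

namespace FA.SubgroupDetection

variable (W : WeierstrassCurve ℤ) [(ratCurve W).IsElliptic] {p : ℕ} [hp : Fact p.Prime]

/-- **An element fixing `E[pᵃ]` and parts of the `Pᵢ - Uᵢ`**, with no fixed point of large order. -/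
theorem exists_fixing_parts {ι : Type*} [Fintype ι] {P : ι → (ratCurve W).toAffine.Point}
    (hP : LinearIndependent ℤ P) (a : ℕ) {U : ι → ((ratCurve W).toAffine⁄Qb).Point}
    (hU : ∀ i, p ^ a • U i = 0) :
    ∃ (M : ℕ) (σ : GQ), a ≤ M ∧
      (∀ y : ((ratCurve W).toAffine⁄Qb).Point, p ^ a • y = 0 → σ • y = y) ∧
      (∀ T : ((ratCurve W).toAffine⁄Qb).Point,
        p ^ (M + 1) • T = 0 → σ • T = T → p ^ M • T = 0) ∧
      ∃ Q U' : ι → ((ratCurve W).toAffine⁄Qb).Point, ∀ i, p ^ (M + 1 + a) • Q i = up W (P i) ∧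
        p ^ (M + 1) • U' i = U i ∧ σ • (p ^ a • Q i - U' i) = p ^ a • Q i - U' i := by
  have hW : W.IsIntegralModelOf (ratCurve W) := ⟨1, one_smul _ _⟩
  obtain ⟨B, hB⟩ := exists_bound_translations_indep W (p := p) hP
  have hpn : ∀ m, p ^ m ≠ 0 := fun m => pow_ne_zero m hp.out.ne_zero
  have := finite_fib W (hpn (B + a)) 0
  have := fun i => finite_fib W (hpn B) (P i)
  set f := (fibHom W (p ^ (B + a)) 0).prod (MonoidHom.pi fun i => fibHom W (p ^ B) (P i)) with hf
  have hopen : IsOpen (f.ker : Set GQ) := by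
    rw [hf, MonoidHom.ker_prod, Subgroup.coe_inf]
    refine (isOpen_ker_fibHom W (hpn _) _).inter ?_
    have e1 : ((MonoidHom.pi fun i => fibHom W (p ^ B) (P i)).ker : Set GQ) =
        ⋂ i, ((fibHom W (p ^ B) (P i)).ker : Set GQ) := by
      ext σ; simp [funext_iff]
    rw [e1]
    exact isOpen_iInter_of_finite fun i => isOpen_ker_fibHom W (hpn _) _
  obtain ⟨l, hl, hlS, A, hA, F, hF, hF1⟩ := FA.Faltings.exists_frobenius_coset f.ker hopen
    (insert p W.Δ.natAbs.divisors) 1
  simp only [Finset.mem_insert, Nat.mem_divisors, not_or, not_and] at hlS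
  have hgood : W.IsGoodPrimeFor l := fun e => hlS.2 (Int.natCast_dvd.mp e)
    (Int.natAbs_ne_zero.mpr (Δ_ne_zero_of_model hW))
  haveI := Fact.mk hl
  have hker := MonoidHom.mem_ker.mp ((QuotientGroup.eq_one_iff F).mp hF1)
  have hFtor : ∀ y : ((ratCurve W).toAffine⁄Qb).Point, p ^ (B + a) • y = 0 → F • y = y :=
    fun y hy => congrArg Subtype.val (Equiv.congr_fun (congrArg Prod.fst hker)
      ⟨y, hy.trans (map_zero (up W)).symm⟩)
  have hFP : ∀ i R, p ^ B • R = up W (P i) → F • R = R := fun i R hR =>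
    congrArg Subtype.val (Equiv.congr_fun (congrFun (congrArg Prod.snd hker) i) ⟨R, hR⟩)
  set t₁ := W.apOfModel l
  set n : ℤ := l + 1 - t₁ with hn
  have hn0 : n ≠ 0 := by
    have hb : t₁ ^ 2 ≤ 4 * (l : ℤ) := by
      rw [show t₁ = W.apOfModel l from rfl, ← FA.Root.LFunction_apply_prime _ W hW hl hgood]
      exact FA.Summary.hasse_LFunction _ W 1 (one_smul _ _) hl hgood
    have h2 : (2 : ℤ) ≤ l := by exact_mod_cast hl.two_le
    intro h0
    have ha : t₁ = l + 1 := by omega
    nlinarith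
  set M := n.natAbs + B + a with hM
  choose Q hQ using fun i => exists_div W (hpn (M + 1 + a)) (up W (P i))
  choose U' hU' using fun i => exists_div W (hpn (M + 1)) (U i)
  have hkill : ∀ {k m : ℕ} {y : ((ratCurve W).toAffine⁄Qb).Point}, k ≤ m →
      p ^ k • y = 0 → p ^ m • y = 0 := fun {k m y} hkm hy => by
    rw [← Nat.sub_add_cancel hkm, pow_add, mul_nsmul', hy, nsmul_zero]
  have hsm : ∀ {k : ℕ} {y : ((ratCurve W).toAffine⁄Qb).Point} (σ : GQ), p ^ k • y = 0 →
      p ^ k • (σ • y) = 0 := fun {k y} σ hy => by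
    rw [← smul_nat, hy]; exact FA.Local.gal_smul_zero _ σ
  have hU'L : ∀ i, p ^ (M + 1 + a) • U' i = 0 := fun i => by
    rw [add_comm (M + 1), pow_add, mul_nsmul', hU', hU]
  have hd₀ : ∀ i, p ^ (M + 1 - B) • (p ^ a • (F • Q i - Q i)) = 0 := fun i => by
    have h := hFP i (p ^ (M + 1 + a - B) • Q i)
      (by rw [← mul_nsmul', ← pow_add, Nat.add_sub_cancel' (by omega), hQ])
    rw [← mul_nsmul', ← pow_add, show M + 1 - B + a = M + 1 + a - B by omega, nsmul_sub,
      ← smul_nat, h, sub_self]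
  have he : ∀ i, p ^ (M + 1 - B) • (F • U' i - U' i) = 0 := fun i => by
    rw [nsmul_sub, ← smul_nat, hFtor _ (by
      rw [← mul_nsmul', ← pow_add, show B + a + (M + 1 - B) = M + 1 + a by omega, hU'L]), sub_self]
  choose t ht using fun i =>
    exists_div W (hpn a) ((F • U' i - U' i) - p ^ a • (F • Q i - Q i))
  obtain ⟨g, hg, hgQ⟩ := hB (M + 1 + a) Q hQ t fun i => by
    rw [show M + 1 + a - B = M + 1 - B + a by omega, pow_add, mul_nsmul', ht, nsmul_sub, he, hd₀,
      sub_zero]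
  have hFk : ∀ y : ((ratCurve W).toAffine⁄Qb).Point, p ^ (M + 1 + a) • y = 0 →
      (g * F) • y = F • y := fun y hy => by
    rw [mul_smul]; exact hg _ (hsm F hy)
  refine ⟨M, g * F, by omega, fun y hy => ?_, fun T hT hfix => ?_, Q, U',
    fun i => ⟨hQ i, hU' i, ?_⟩⟩
  · rw [hFk y (hkill (by omega) hy), hFtor y (hkill (by omega) hy)]
  · rw [hFk T (hkill (Nat.le_add_right _ _) hT)] at hfix
    have hr := (FA.RT.Tate.frobenius_relations (W := W) (p := p) hl hA
      (show l ≠ p from hlS.1) hgood hF).1 (M + 1) T hT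
    rw [hfix, hfix] at hr
    have hnT : n • T = 0 := by rw [← hr, hn]; module
    obtain ⟨e, -, he'⟩ := (Nat.dvd_prime_pow hp.out).mp (addOrderOf_dvd_of_nsmul_eq_zero hT)
    have h1 := Int.natCast_dvd.mp (addOrderOf_dvd_iff_zsmul_eq_zero.mpr hnT)
    rw [he'] at h1
    have h2 := (Nat.lt_pow_self hp.out.one_lt (n := e)).le.trans
      (Nat.le_of_dvd (Int.natAbs_pos.mpr hn0) h1)
    exact addOrderOf_dvd_iff_nsmul_eq_zero.mp (he' ▸ pow_dvd_pow p (show e ≤ M by omega))
  · have hd : p ^ (M + 1 + a) • (F • Q i - Q i) = 0 := by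
      rw [nsmul_sub, ← smul_nat, hQ, smul_up, sub_self]
    have hσQ : (g * F) • Q i = Q i + t i + (F • Q i - Q i) := by
      rw [mul_smul]
      conv_lhs => rw [show F • Q i = Q i + (F • Q i - Q i) by rw [add_sub_cancel]]
      rw [FA.Local.gal_smul_add (ratCurve W) g, hgQ i, hg _ hd]
    rw [FA.Local.gal_smul_sub (ratCurve W) (g * F), smul_nat W (g * F), hσQ, hFk _ (hU'L i),
      nsmul_add, nsmul_add, ht i]
    abel

/-- **Prescribed parts of the reductions**: outside any finite set of primes some `q` is such that a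
Frobenius at `q` fixes `E[pᵃ]` and modulo `q` the `Pᵢ - Uᵢ` have order prime to `p`. -/
theorem exists_prime_prescribed {ι : Type*} [Fintype ι] {P : ι → (ratCurve W).toAffine.Point}
    (hP : LinearIndependent ℤ P) (a : ℕ) {U : ι → ((ratCurve W).toAffine⁄Qb).Point}
    (hU : ∀ i, p ^ a • U i = 0) (S : Finset ℕ) :
    ∃ q, ∃ _ : Fact q.Prime, q ∉ S ∧ q ≠ p ∧ ∃ A : ValuationSubring Qb, ∃ _ : CharP (Res A) q,
      ∃ _ : (redCurve A ((ratCurve W)⁄Qb).toAffine (intCoeff_ratCurve W A)).IsElliptic,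
      ∃ (hA : A.LiesOverPrime q) (hgood : W.IsGoodPrimeFor q), ∀ i, ¬ p ∣ addOrderOf
        (redHom (intCoeff_ratCurve W A) (valuation_Δ_ratCurve W Fact.out hA hgood)
          (up W (P i) - U i)) := by
  obtain ⟨M, σ, hMa, hσa, hfix, Q, U', hQU⟩ := exists_fixing_parts W hP a hU
  have hpn : ∀ m, p ^ m ≠ 0 := fun m => pow_ne_zero m hp.out.ne_zero
  have := finite_fib W (hpn (M + 1 + a)) 0
  have := fun i => finite_fib W (hpn (M + 1 + a)) (P i)
  set f := (fibHom W (p ^ (M + 1 + a)) 0).prod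
    (MonoidHom.pi fun i => fibHom W (p ^ (M + 1 + a)) (P i)) with hf
  have hopen : IsOpen (f.ker : Set GQ) := by
    rw [hf, MonoidHom.ker_prod, Subgroup.coe_inf]
    refine (isOpen_ker_fibHom W (hpn _) _).inter ?_
    have e1 : ((MonoidHom.pi fun i => fibHom W (p ^ (M + 1 + a)) (P i)).ker : Set GQ) =
        ⋂ i, ((fibHom W (p ^ (M + 1 + a)) (P i)).ker : Set GQ) := by
      ext σ; simp [funext_iff]
    rw [e1]
    exact isOpen_iInter_of_finite fun i => isOpen_ker_fibHom W (hpn _) _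
  have hΔ : W.Δ.natAbs ≠ 0 := fun e => (ratCurve W).isUnit_Δ.ne_zero (by
    simp [ratCurve, Int.natAbs_eq_zero.mp e])
  obtain ⟨q, hq, hqS, A, hA, F, hF, hF1⟩ := FA.Faltings.exists_frobenius_coset f.ker hopen
    (S ∪ insert p W.Δ.natAbs.divisors) (σ : GQ ⧸ f.ker)
  simp only [Finset.mem_union, Finset.mem_insert, Nat.mem_divisors, not_or, not_and] at hqS
  have hgood : W.IsGoodPrimeFor q := fun e => hqS.2.2 (Int.natCast_dvd.mp e) hΔ
  have hker := MonoidHom.mem_ker.mp (QuotientGroup.eq.mp hF1)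
  have hF0 : ∀ {z : ((ratCurve W).toAffine⁄Qb).Point}, p ^ (M + 1 + a) • z = 0 → F • z = σ • z :=
    fun {z} hz => by
      have e := congrArg Subtype.val (Equiv.congr_fun (congrArg Prod.fst hker)
        ⟨z, hz.trans (map_zero (up W)).symm⟩)
      replace e : (F⁻¹ * σ) • z = z := e
      rwa [mul_smul, inv_smul_eq_iff, eq_comm] at e
  have hFQ : ∀ i, F • Q i = σ • Q i := fun i => by
    have e := congrArg Subtype.val (Equiv.congr_fun (congrFun (congrArg Prod.snd hker) i)
      ⟨Q i, (hQU i).1⟩)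
    replace e : (F⁻¹ * σ) • Q i = Q i := e
    rwa [mul_smul, inv_smul_eq_iff, eq_comm] at e
  haveI := Fact.mk hq
  haveI := reductionMod_isElliptic W hgood
  haveI : CharP (Res A) q := residueField_charP A hq hA
  haveI := redCurve_isElliptic (intCoeff_ratCurve W A) (valuation_Δ_ratCurve W hq hA hgood)
  refine ⟨q, inferInstance, hqS.1, hqS.2.1, A, inferInstance, inferInstance, hA, hgood,
    fun i => ?_⟩
  obtain ⟨hQ, hU', hσY⟩ := hQU i
  have hU'L : p ^ (M + 1 + a) • U' i = 0 := by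
    rw [add_comm (M + 1), pow_add, mul_nsmul', hU', hU]
  have hFY : F • (p ^ a • Q i - U' i) = p ^ a • Q i - U' i := by
    rw [FA.Local.gal_smul_sub (ratCurve W) F, smul_nat W F, hFQ, hF0 hU'L, ← smul_nat W σ,
      ← FA.Local.gal_smul_sub (ratCurve W) σ, hσY]
  obtain ⟨R, hR⟩ := FA.BashmakovDensity.exists_red_eq_of_fixed hgood hA hF hFY
  have hno : ∀ X : (W.map (Int.castRingHom (ZMod q))).toAffine.Point,
      p ^ (M + 1) • X = 0 → p ^ M • X = 0 := fun X hX => by
    by_contra hX'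
    obtain ⟨T, hT0, hFT, hT'⟩ :=
      FA.OrderDensity.exists_fixed_torsion hp.out hgood hqS.2.1 hX hX' hA hF
    refine hT' (hfix T hT0 ((hF0 ?_).symm.trans hFT))
    rw [add_comm (M + 1), pow_add, mul_nsmul', hT0, nsmul_zero]
  have e : p ^ (M + 1) • (p ^ a • Q i - U' i) = up W (P i) - U i := by
    rw [nsmul_sub, ← mul_nsmul', ← pow_add, hQ, hU']
  rw [← e, map_nsmul, ← hR, ← map_nsmul, addOrderOf_injective _ (mapHom_injective _ _),
    pow_succ', mul_nsmul']
  exact fun hd => FA.OrderDensity.not_dvd_addOrderOf_nsmul hp.out hno R (hd.trans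
    (addOrderOf_dvd_of_nsmul_eq_zero (by rw [smul_comm, addOrderOf_nsmul_eq_zero, nsmul_zero])))

end FA.SubgroupDetection

end
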