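import Fermat.Agent.SubgroupDetection.Avoid
import Fermat.Agent.SubgroupDetection.Prescribed

/-!
# Prescribed parts of the reductions at a finite set of primes at once

A translation at the prime `p` raised to a power whose `p`-part is bounded fixes the torsion and
the parts of the points at the levels of the other primes of a finite set `S`. So one Frobenius
composed with such translations fixes, for every `p ∈ S`, parts of the `Pᵢ - U p i` and no point of
large `p`-power order.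
-/

set_option autoImplicit false
set_option linter.style.haveILetI false

noncomputable section

open WeierstrassCurve NumberField IsDedekindDomain FA.Frob FA.EC FA.PointDiv
open scoped WeierstrassCurve.Affine Classical

local notation "Qb" => AlgebraicClosure ℚ
local notation "GQ" => AlgebraicClosure ℚ ≃ₐ[ℚ] AlgebraicClosure ℚ

namespace FA.SubgroupDetection

section

variable {G A : Type*} [Group G] [AddCommGroup A] (act : G →* AddMonoid.End A)

/-- Powers of an element translating by a fixed point. -/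
theorem pow_act_translate {h : G} {x d : A} (hd : act h d = d) (hx : act h x = x + d) (i : ℕ) :
    act (h ^ i) x = x + i • d := by
  induction i with
  | zero => rw [pow_zero, map_one, zero_nsmul, add_zero]; rfl
  | succ i ih =>
    rw [pow_succ', FA.Bashmakov.act_mul, ih, map_add, hx, map_nsmul, hd, succ_nsmul', add_assoc]

/-- An element fixing the `r`-torsion has a `r ^ j`-th power fixing the `r ^ (j + 1)`-torsion. -/
theorem pow_act_eq_self {r : ℕ} {h : G} (hh : ∀ y : A, r • y = 0 → act h y = y) (j : ℕ) :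
    ∀ y : A, r ^ (j + 1) • y = 0 → act (h ^ r ^ j) y = y := by
  induction j with
  | zero => simpa using hh
  | succ j ih =>
    intro y hy
    set h' := h ^ r ^ j with hh'
    have hd : r • (act h' y - y) = 0 := by
      rw [nsmul_sub, ← map_nsmul, ih (r • y) (by rw [← mul_nsmul', ← pow_succ]; exact hy),
        sub_self]
    rw [pow_succ, pow_mul, ← hh',
      pow_act_translate act (ih _ ?_) (add_sub_cancel y (act h' y)).symm, hd, add_zero]
    rw [pow_succ, mul_nsmul', hd, nsmul_zero]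

/-- Powers of an element fixing a point fix it. -/
theorem pow_act_fixed {h : G} {x : A} (hx : act h x = x) (i : ℕ) : act (h ^ i) x = x := by
  induction i with
  | zero => rw [pow_zero, map_one]; rfl
  | succ i ih => rw [pow_succ, FA.Bashmakov.act_mul, hx, ih]

end

variable (W : WeierstrassCurve ℤ) [(ratCurve W).IsElliptic]

/-- **Translations at `p` fixing the levels of the other primes of `S`.** -/
theorem exists_bound_translations_set {S : Finset ℕ} (hS : ∀ r ∈ S, r.Prime) {p : ℕ}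
    (hpS : p ∈ S) {ι : Type*} [Fintype ι] {P : ι → (ratCurve W).toAffine.Point}
    (hP : LinearIndependent ℤ P) :
    ∃ B : ℕ, ∀ (M : ℕ) (Q : ℕ → ι → ((ratCurve W).toAffine⁄Qb).Point),
      (∀ r ∈ S, ∀ i, r ^ M • Q r i = up W (P i)) →
      ∀ t : ι → ((ratCurve W).toAffine⁄Qb).Point, (∀ i, p ^ (M - B) • t i = 0) → ∃ g : GQ,
        (∀ r ∈ S, ∀ y : ((ratCurve W).toAffine⁄Qb).Point, r ^ M • y = 0 → g • y = y) ∧
          (∀ r ∈ S, r ≠ p → ∀ i, g • Q r i = Q r i) ∧ ∀ i, g • Q p i = Q p i + t i := by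
  have hp := hS p hpS
  haveI := Fact.mk hp
  obtain ⟨B, hB⟩ := exists_bound_translations_indep W (p := p) hP
  set e := ∏ r ∈ S.erase p, Nat.card (fibHom W r 0).range
  have he0 : e ≠ 0 := Finset.prod_ne_zero_iff.mpr fun r hr => by
    have := finite_fib W (hS r (Finset.mem_of_mem_erase hr)).ne_zero 0
    exact Nat.card_pos.ne'
  obtain ⟨v, e', he', hee⟩ := Nat.exists_eq_pow_mul_and_not_dvd he0 p hp.ne_one
  refine ⟨B + v, fun M Q hQ t ht => ?_⟩
  set act := FA.Bashmakov.pointAct (ratCurve W)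
  rcases Nat.lt_or_ge M (B + v) with hM | hM
  · refine ⟨1, fun r _ y _ => one_smul _ _, fun r _ _ i => one_smul _ _, fun i => ?_⟩
    have := ht i
    rw [Nat.sub_eq_zero_of_le hM.le, pow_zero, one_nsmul] at this
    rw [one_smul, this, add_zero]
  set R := ∏ r ∈ S.erase p, (r ^ M * r ^ M) with hR
  have hcop : IsCoprime ((e' * R : ℕ) : ℤ) ((p : ℤ) ^ M) := by
    rw [← Nat.cast_pow]
    refine Nat.isCoprime_iff_coprime.mpr (((hp.coprime_iff_not_dvd.mpr ?_).symm).pow_right M)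
    refine hp.not_dvd_mul he' fun hd => ?_
    obtain ⟨r, hr, hpr⟩ := (Prime.dvd_finsetProd_iff hp.prime _).mp hd
    obtain ⟨hne, hrS⟩ := Finset.mem_erase.mp hr
    rw [← pow_add] at hpr
    exact hne ((Nat.prime_dvd_prime_iff_eq hp (hS r hrS)).mp (hp.dvd_of_dvd_pow hpr)).symm
  obtain ⟨c, d, hcd⟩ := hcop
  choose t' ht' using fun i => exists_div W (pow_ne_zero v hp.ne_zero) (c • t i)
  obtain ⟨g, hg, hgQ⟩ := hB M (Q p) (hQ p hpS) t' fun i => by
    rw [show M - B = M - (B + v) + v by omega, pow_add, mul_nsmul', ht', smul_comm, ht, zsmul_zero]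
  have hfixe : ∀ r ∈ S, r ≠ p → ∀ z : ((ratCurve W).toAffine⁄Qb).Point,
      r • z = 0 → g ^ e • z = z := fun r hr hne z hz => by
    obtain ⟨j, hj⟩ := (Finset.dvd_prod_of_mem (fun r => Nat.card (fibHom W r 0).range)
      (Finset.mem_erase.mpr ⟨hne, hr⟩) : Nat.card (fibHom W r 0).range ∣ e)
    have := finite_fib W (hS r hr).ne_zero 0
    have h1 : fibHom W r 0 (g ^ e) = 1 := by
      rw [map_pow, show e = _ from hj, pow_mul]
      have h2 := congrArg Subtype.val
        (pow_card_eq_one' (x := (⟨fibHom W r 0 g, g, rfl⟩ : (fibHom W r 0).range)))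
      rw [Subgroup.coe_pow, Subgroup.coe_one] at h2
      rw [h2, one_pow]
    exact congrArg Subtype.val (Equiv.congr_fun h1 ⟨z, hz.trans (map_zero (up W)).symm⟩)
  refine ⟨g ^ (e * R), fun r hr y hy => ?_, fun r hr hne i => ?_, fun i => ?_⟩
  rotate_left
  · obtain ⟨k, hk⟩ := (Finset.dvd_prod_of_mem (fun r => r ^ M * r ^ M)
      (Finset.mem_erase.mpr ⟨hne, hr⟩) : r ^ M * r ^ M ∣ R)
    have hfixM : ∀ z : ((ratCurve W).toAffine⁄Qb).Point, r ^ M • z = 0 →
        (g ^ e) ^ r ^ M • z = z := fun z hz =>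
      pow_act_eq_self act (hfixe r hr hne) M z (by rw [pow_succ', mul_nsmul', hz, nsmul_zero])
    set d₁ := (g ^ e) ^ r ^ M • Q r i - Q r i
    have hd₁ : r ^ M • d₁ = 0 := by
      rw [nsmul_sub, ← smul_nat, hQ r hr, smul_up, sub_self]
    rw [show R = _ from hk, ← mul_assoc, ← mul_assoc, pow_mul, pow_mul, pow_mul]
    refine pow_act_fixed act ?_ k
    rw [pow_act_translate act (hfixM _ hd₁) (add_sub_cancel _ _).symm, hd₁, add_zero]
  · have ht0 : p ^ M • t' i = 0 := by
      rw [show M = M - (v + 0) + v by omega, pow_add, mul_nsmul', ht', smul_comm,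
        show M - (v + 0) = B + (M - (B + v)) by omega, pow_add, mul_nsmul' (t i), ht, nsmul_zero,
        zsmul_zero]
    show act (g ^ (e * R)) (Q p i) = _
    rw [pow_act_translate act (hg _ ht0) (hgQ i)]
    congr 1
    have h0 : ((p : ℤ) ^ M) • t i = 0 := by
      rw [← Nat.cast_pow, natCast_zsmul, show M = B + v + (M - (B + v)) by omega, pow_add,
        mul_nsmul' (t i), ht, nsmul_zero]
    rw [hee, mul_assoc, mul_comm (p ^ v), mul_nsmul', ht', ← natCast_zsmul, ← mul_zsmul,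
      show ((e' * R : ℕ) : ℤ) * c = 1 - d * (p : ℤ) ^ M by linear_combination hcd, sub_zsmul,
      one_zsmul, mul_zsmul, h0, zsmul_zero, neg_zero, add_zero]
  · rcases eq_or_ne r p with rfl | hne
    · exact pow_act_fixed act (hg y hy) _
    obtain ⟨k, hk⟩ := (Finset.dvd_prod_of_mem (fun r => r ^ M * r ^ M)
      (Finset.mem_erase.mpr ⟨hne, hr⟩) : r ^ M * r ^ M ∣ R)
    rw [show R = _ from hk, ← mul_assoc, ← mul_assoc, pow_mul, pow_mul, pow_mul]
    exact pow_act_fixed act (pow_act_fixed act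
      (pow_act_eq_self act (hfixe r hr hne) M y
        (by rw [pow_succ', mul_nsmul', hy, nsmul_zero])) _) k

/-- The translations at all the primes of `S` together. -/
theorem exists_bound_translations_simultaneous {S : Finset ℕ} (hS : ∀ r ∈ S, r.Prime) {ι : Type*}
    [Fintype ι] {P : ι → (ratCurve W).toAffine.Point} (hP : LinearIndependent ℤ P) :
    ∃ B : ℕ, ∀ (M : ℕ) (Q : ℕ → ι → ((ratCurve W).toAffine⁄Qb).Point),
      (∀ r ∈ S, ∀ i, r ^ M • Q r i = up W (P i)) →
      ∀ t : ℕ → ι → ((ratCurve W).toAffine⁄Qb).Point,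
        (∀ r ∈ S, ∀ i, r ^ (M - B) • t r i = 0) → ∃ g : GQ,
          (∀ r ∈ S, ∀ y : ((ratCurve W).toAffine⁄Qb).Point, r ^ M • y = 0 → g • y = y) ∧
            ∀ r ∈ S, ∀ i, g • Q r i = Q r i + t r i := by
  choose B hB using fun r : S => exists_bound_translations_set W hS r.2 hP
  refine ⟨∑ r, B r, fun M Q hQ t ht => ?_⟩
  have hkill : ∀ r ∈ S, ∀ {k : ℕ}, M - ∑ s, B s ≤ k → ∀ i, r ^ k • t r i = 0 :=
    fun r hr k hk i => by
      rw [← Nat.sub_add_cancel hk, pow_add, mul_nsmul', ht r hr, nsmul_zero]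
  suffices h : ∀ T : Finset ℕ, T ⊆ S → ∃ g : GQ,
      (∀ r ∈ S, ∀ y : ((ratCurve W).toAffine⁄Qb).Point, r ^ M • y = 0 → g • y = y) ∧
        ∀ r ∈ S, ∀ i, g • Q r i = Q r i + if r ∈ T then t r i else 0 by
    obtain ⟨g, hg, hgQ⟩ := h S subset_rfl
    exact ⟨g, hg, fun r hr i => by simpa [hr] using hgQ r hr i⟩
  intro T
  induction T using Finset.induction with
  | empty => exact fun _ => ⟨1, fun r _ y _ => one_smul _ _, fun r _ i => by simp⟩
  | @insert p T hpT ih =>
    intro hsub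
    rw [Finset.insert_subset_iff] at hsub
    obtain ⟨g, hg, hgQ⟩ := ih hsub.2
    obtain ⟨h, hh, hhQ, hhp⟩ := hB ⟨p, hsub.1⟩ M Q hQ (t p) (hkill p hsub.1
      (Nat.sub_le_sub_left (Finset.single_le_sum (f := B) (fun _ _ => Nat.zero_le _)
        (Finset.mem_univ _)) M))
    refine ⟨h * g, fun r hr y hy => by rw [mul_smul, hg r hr y hy, hh r hr y hy],
      fun r hr i => ?_⟩
    rw [mul_smul, hgQ r hr i, FA.Local.gal_smul_add (ratCurve W) h]
    rcases eq_or_ne r p with rfl | hne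
    · rw [if_neg hpT, if_pos (Finset.mem_insert_self _ _), FA.Local.gal_smul_zero (ratCurve W) h,
        add_zero, hhp]
    · rw [hhQ r hr hne]
      congr 1
      simp only [Finset.mem_insert, hne, false_or]
      split_ifs with hrT
      · exact hh r hr _ (hkill r hr (Nat.sub_le _ _) i)
      · exact FA.Local.gal_smul_zero (ratCurve W) h

/-- **An element fixing the `E[rᵃ]` and parts of the `Pᵢ - U r i`** for all `r ∈ S` at once, with no
fixed point of large `r`-power order. -/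
theorem exists_fixing_parts_set {S : Finset ℕ} (hS : ∀ r ∈ S, r.Prime) {ι : Type*} [Fintype ι]
    {P : ι → (ratCurve W).toAffine.Point} (hP : LinearIndependent ℤ P) (a : ℕ)
    {U : ℕ → ι → ((ratCurve W).toAffine⁄Qb).Point} (hU : ∀ r ∈ S, ∀ i, r ^ a • U r i = 0) :
    ∃ (M : ℕ) (σ : GQ),
      (∀ r ∈ S, ∀ y : ((ratCurve W).toAffine⁄Qb).Point, r ^ a • y = 0 → σ • y = y) ∧
      (∀ r ∈ S, ∀ T : ((ratCurve W).toAffine⁄Qb).Point,
        r ^ (M + 1) • T = 0 → σ • T = T → r ^ M • T = 0) ∧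
      ∃ Q U' : ℕ → ι → ((ratCurve W).toAffine⁄Qb).Point, ∀ r ∈ S, ∀ i,
        r ^ (M + 1 + a) • Q r i = up W (P i) ∧ r ^ (M + 1) • U' r i = U r i ∧
          σ • (r ^ a • Q r i - U' r i) = r ^ a • Q r i - U' r i := by
  have hW : W.IsIntegralModelOf (ratCurve W) := ⟨1, one_smul _ _⟩
  obtain ⟨B, hB⟩ := exists_bound_translations_simultaneous W hS hP
  have hpn : ∀ (r : S) m, r.1 ^ m ≠ 0 := fun r m => pow_ne_zero m (hS r.1 r.2).ne_zero
  have := fun r => finite_fib W (hpn r (B + a)) 0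
  have := fun (x : S × ι) => finite_fib W (hpn x.1 B) (P x.2)
  set f := (MonoidHom.pi fun r : S => fibHom W (r.1 ^ (B + a)) 0).prod
    (MonoidHom.pi fun x : S × ι => fibHom W (x.1.1 ^ B) (P x.2)) with hf
  have hopen : IsOpen (f.ker : Set GQ) := by
    rw [hf, MonoidHom.ker_prod, Subgroup.coe_inf]
    refine IsOpen.inter ?_ ?_
    · have e1 : ((MonoidHom.pi fun r : S => fibHom W (r.1 ^ (B + a)) 0).ker : Set GQ) =
          ⋂ r : S, ((fibHom W (r.1 ^ (B + a)) 0).ker : Set GQ) := by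
        ext σ; simp [funext_iff]
      rw [e1]
      exact isOpen_iInter_of_finite fun r => isOpen_ker_fibHom W (hpn r _) _
    · have e1 : ((MonoidHom.pi fun x : S × ι => fibHom W (x.1.1 ^ B) (P x.2)).ker : Set GQ) =
          ⋂ x : S × ι, ((fibHom W (x.1.1 ^ B) (P x.2)).ker : Set GQ) := by
        ext σ; simp [funext_iff]
      rw [e1]
      exact isOpen_iInter_of_finite fun x => isOpen_ker_fibHom W (hpn x.1 _) _
  obtain ⟨l, hl, hlS, A, hA, F, hF, hF1⟩ := FA.Faltings.exists_frobenius_coset f.ker hopen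
    (S ∪ W.Δ.natAbs.divisors) 1
  simp only [Finset.mem_union, Nat.mem_divisors, not_or, not_and] at hlS
  have hgood : W.IsGoodPrimeFor l := fun e => hlS.2 (Int.natCast_dvd.mp e)
    (Int.natAbs_ne_zero.mpr (Δ_ne_zero_of_model hW))
  haveI := Fact.mk hl
  have hker := MonoidHom.mem_ker.mp ((QuotientGroup.eq_one_iff F).mp hF1)
  have hFtor : ∀ r ∈ S, ∀ y : ((ratCurve W).toAffine⁄Qb).Point, r ^ (B + a) • y = 0 → F • y = y :=
    fun r hr y hy => congrArg Subtype.val (Equiv.congr_fun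
      (congrFun (congrArg Prod.fst hker) ⟨r, hr⟩) ⟨y, hy.trans (map_zero (up W)).symm⟩)
  have hFP : ∀ r ∈ S, ∀ i R, r ^ B • R = up W (P i) → F • R = R := fun r hr i R hR =>
    congrArg Subtype.val (Equiv.congr_fun
      (congrFun (congrArg Prod.snd hker) (⟨r, hr⟩, i)) ⟨R, hR⟩)
  set t₁ := W.apOfModel l
  set n : ℤ := l + 1 - t₁ with hn
  have hn0 : n ≠ 0 := by
    have hb : t₁ ^ 2 ≤ 4 * (l : ℤ) := by
      rw [show t₁ = W.apOfModel l from rfl, ← FA.Root.LFunction_apply_prime _ W hW hl hgood]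
      exact FA.Summary.hasse_LFunction _ W 1 (one_smul _ _) hl hgood
    have h2 : (2 : ℤ) ≤ l := by exact_mod_cast hl.two_le
    intro h0
    have ha : t₁ = l + 1 := by omega
    nlinarith
  set M := n.natAbs + B + a with hM
  have hex : ∀ r i, ∃ Q U' T : ((ratCurve W).toAffine⁄Qb).Point, r ∈ S →
      r ^ (M + 1 + a) • Q = up W (P i) ∧ r ^ (M + 1) • U' = U r i ∧
        r ^ a • T = (F • U' - U') - r ^ a • (F • Q - Q) := fun r i => by
    by_cases hr : r ∈ S
    · obtain ⟨Q, hQ⟩ := exists_div W (hpn ⟨r, hr⟩ (M + 1 + a)) (up W (P i))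
      obtain ⟨U', hU'⟩ := exists_div W (hpn ⟨r, hr⟩ (M + 1)) (U r i)
      obtain ⟨T, hT⟩ := exists_div W (hpn ⟨r, hr⟩ a) ((F • U' - U') - r ^ a • (F • Q - Q))
      exact ⟨Q, U', T, fun _ => ⟨hQ, hU', hT⟩⟩
    · exact ⟨0, 0, 0, fun h => absurd h hr⟩
  choose Q U' t hall using hex
  have hQ := fun r i hr => (hall r i hr).1
  have hU' := fun r i hr => (hall r i hr).2.1
  have hkill : ∀ {r k m : ℕ} {y : ((ratCurve W).toAffine⁄Qb).Point}, k ≤ m →
      r ^ k • y = 0 → r ^ m • y = 0 := fun {r k m y} hkm hy => by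
    rw [← Nat.sub_add_cancel hkm, pow_add, mul_nsmul', hy, nsmul_zero]
  have hU'L : ∀ r ∈ S, ∀ i, r ^ (M + 1 + a) • U' r i = 0 := fun r hr i => by
    rw [add_comm (M + 1), pow_add, mul_nsmul', hU' r i hr, hU r hr]
  obtain ⟨g, hg, hgQ⟩ := hB (M + 1 + a) Q (fun r hr i => hQ r i hr) t fun r hr i => by
    have hd₀ : r ^ (M + 1 - B) • (r ^ a • (F • Q r i - Q r i)) = 0 := by
      have h := hFP r hr i (r ^ (M + 1 + a - B) • Q r i)
        (by rw [← mul_nsmul', ← pow_add, Nat.add_sub_cancel' (by omega), hQ r i hr])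
      rw [← mul_nsmul', ← pow_add, show M + 1 - B + a = M + 1 + a - B by omega, nsmul_sub,
        ← smul_nat, h, sub_self]
    have he : r ^ (M + 1 - B) • (F • U' r i - U' r i) = 0 := by
      rw [nsmul_sub, ← smul_nat, hFtor r hr _ (by
        rw [← mul_nsmul', ← pow_add, show B + a + (M + 1 - B) = M + 1 + a by omega,
          hU'L r hr i]), sub_self]
    rw [show M + 1 + a - B = M + 1 - B + a by omega, pow_add, mul_nsmul', (hall r i hr).2.2,
      nsmul_sub, he, hd₀, sub_zero]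
  have hFk : ∀ r ∈ S, ∀ y : ((ratCurve W).toAffine⁄Qb).Point, r ^ (M + 1 + a) • y = 0 →
      (g * F) • y = F • y := fun r hr y hy => by
    rw [mul_smul]
    exact hg r hr _ (by rw [← smul_nat, hy]; exact FA.Local.gal_smul_zero _ F)
  refine ⟨M, g * F, fun r hr y hy => by
    rw [hFk r hr y (hkill (by omega) hy), hFtor r hr y (hkill (by omega) hy)],
    fun r hr T hT hfix => ?_, Q, U',
    fun r hr i => ⟨hQ r i hr, hU' r i hr, ?_⟩⟩
  · haveI := Fact.mk (hS r hr)
    rw [hFk r hr T (hkill (Nat.le_add_right _ _) hT)] at hfix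
    have hr' := (FA.RT.Tate.frobenius_relations (W := W) (p := r) hl hA
      (fun e => hlS.1 (e ▸ hr)) hgood hF).1 (M + 1) T hT
    rw [hfix, hfix] at hr'
    have hnT : n • T = 0 := by rw [← hr', hn]; module
    obtain ⟨e, -, he'⟩ := (Nat.dvd_prime_pow (hS r hr)).mp (addOrderOf_dvd_of_nsmul_eq_zero hT)
    have h1 := Int.natCast_dvd.mp (addOrderOf_dvd_iff_zsmul_eq_zero.mpr hnT)
    rw [he'] at h1
    have h2 := (Nat.lt_pow_self (hS r hr).one_lt (n := e)).le.trans
      (Nat.le_of_dvd (Int.natAbs_pos.mpr hn0) h1)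
    exact addOrderOf_dvd_iff_nsmul_eq_zero.mp (he' ▸ pow_dvd_pow r (show e ≤ M by omega))
  · have hd : r ^ (M + 1 + a) • (F • Q r i - Q r i) = 0 := by
      rw [nsmul_sub, ← smul_nat, hQ r i hr, smul_up, sub_self]
    have hσQ : (g * F) • Q r i = Q r i + t r i + (F • Q r i - Q r i) := by
      rw [mul_smul]
      conv_lhs => rw [show F • Q r i = Q r i + (F • Q r i - Q r i) by rw [add_sub_cancel]]
      rw [FA.Local.gal_smul_add (ratCurve W) g, hgQ r hr i, hg r hr _ hd]
    rw [FA.Local.gal_smul_sub (ratCurve W) (g * F), smul_nat W (g * F), hσQ,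
      hFk r hr _ (hU'L r hr i), nsmul_add, nsmul_add, (hall r i hr).2.2]
    abel

/-- **Prescribed parts of the reductions at all the primes of `S`**: outside any finite
set and any set of density zero some prime `q` is such that modulo `q` the `Pᵢ - U r i` have order
prime to `r` for all `r ∈ S`. -/
theorem exists_prime_prescribed_set_avoid {S : Finset ℕ} (hS : ∀ r ∈ S, r.Prime) {ι : Type*}
    [Fintype ι]
    {P : ι → (ratCurve W).toAffine.Point} (hP : LinearIndependent ℤ P) (a : ℕ)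
    {U : ℕ → ι → ((ratCurve W).toAffine⁄Qb).Point} (hU : ∀ r ∈ S, ∀ i, r ^ a • U r i = 0)
    (S' : Finset ℕ) {Z : Set (HeightOneSpectrum (𝓞 ℚ))} (hZ : Z.HasDirichletDensity 0) :
    ∃ q, ∃ _ : Fact q.Prime, (∀ v : HeightOneSpectrum (𝓞 ℚ),
      Ideal.absNorm v.asIdeal = q → v ∉ Z) ∧ q ∉ S' ∧ q ∉ S ∧
      ∃ A : ValuationSubring Qb, ∃ _ : CharP (Res A) q,
      ∃ _ : (redCurve A ((ratCurve W)⁄Qb).toAffine (intCoeff_ratCurve W A)).IsElliptic,
      ∃ (hA : A.LiesOverPrime q) (hgood : W.IsGoodPrimeFor q), (∃ F : GQ, A.IsFrobeniusAt F q ∧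
        ∀ r ∈ S, ∀ y : ((ratCurve W).toAffine⁄Qb).Point, r ^ a • y = 0 → F • y = y) ∧
      ∀ r ∈ S, ∀ i, ¬ r ∣ addOrderOf
        (redHom (intCoeff_ratCurve W A) (valuation_Δ_ratCurve W Fact.out hA hgood)
          (up W (P i) - U r i)) := by
  obtain ⟨M, σ, hσa, hfix, Q, U', hQU⟩ := exists_fixing_parts_set W hS hP a hU
  have hpn : ∀ (r : S) m, r.1 ^ m ≠ 0 := fun r m => pow_ne_zero m (hS r.1 r.2).ne_zero
  have := fun r => finite_fib W (hpn r (M + 1 + a)) 0
  have := fun (x : S × ι) => finite_fib W (hpn x.1 (M + 1 + a)) (P x.2)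
  set f := (MonoidHom.pi fun r : S => fibHom W (r.1 ^ (M + 1 + a)) 0).prod
    (MonoidHom.pi fun x : S × ι => fibHom W (x.1.1 ^ (M + 1 + a)) (P x.2)) with hf
  have hopen : IsOpen (f.ker : Set GQ) := by
    rw [hf, MonoidHom.ker_prod, Subgroup.coe_inf]
    refine IsOpen.inter ?_ ?_
    · have e1 : ((MonoidHom.pi fun r : S => fibHom W (r.1 ^ (M + 1 + a)) 0).ker : Set GQ) =
          ⋂ r : S, ((fibHom W (r.1 ^ (M + 1 + a)) 0).ker : Set GQ) := by
        ext σ; simp [funext_iff]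
      rw [e1]
      exact isOpen_iInter_of_finite fun r => isOpen_ker_fibHom W (hpn r _) _
    · have e1 : ((MonoidHom.pi fun x : S × ι => fibHom W (x.1.1 ^ (M + 1 + a)) (P x.2)).ker :
          Set GQ) = ⋂ x : S × ι, ((fibHom W (x.1.1 ^ (M + 1 + a)) (P x.2)).ker : Set GQ) := by
        ext σ; simp [funext_iff]
      rw [e1]
      exact isOpen_iInter_of_finite fun x => isOpen_ker_fibHom W (hpn x.1 _) _
  have hΔ : W.Δ.natAbs ≠ 0 := fun e => (ratCurve W).isUnit_Δ.ne_zero (by
    simp [ratCurve, Int.natAbs_eq_zero.mp e])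
  obtain ⟨q, hq, hqS, hqZ, A, hA, F, hF, hF1⟩ := exists_frobenius_coset_avoid f.ker hopen
    (S' ∪ (S ∪ W.Δ.natAbs.divisors)) hZ (σ : GQ ⧸ f.ker)
  simp only [Finset.mem_union, Nat.mem_divisors, not_or, not_and] at hqS
  have hgood : W.IsGoodPrimeFor q := fun e => hqS.2.2 (Int.natCast_dvd.mp e) hΔ
  have hker := MonoidHom.mem_ker.mp (QuotientGroup.eq.mp hF1)
  haveI := Fact.mk hq
  haveI := reductionMod_isElliptic W hgood
  haveI : CharP (Res A) q := residueField_charP A hq hA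
  haveI := redCurve_isElliptic (intCoeff_ratCurve W A) (valuation_Δ_ratCurve W hq hA hgood)
  have hF00 : ∀ r (hr : r ∈ S) {z : ((ratCurve W).toAffine⁄Qb).Point},
      r ^ (M + 1 + a) • z = 0 → F • z = σ • z := fun r hr {z} hz => by
      have e := congrArg Subtype.val (Equiv.congr_fun (congrFun (congrArg Prod.fst hker) ⟨r, hr⟩)
        ⟨z, hz.trans (map_zero (up W)).symm⟩)
      replace e : (F⁻¹ * σ) • z = z := e
      rwa [mul_smul, inv_smul_eq_iff, eq_comm] at e
  refine ⟨q, inferInstance, hqZ, hqS.1, hqS.2.1, A, inferInstance, inferInstance, hA, hgood,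
    ⟨F, hF, fun r hr y hy => ?_⟩, fun r hr i => ?_⟩
  · rw [hF00 r hr (by rw [pow_add, mul_nsmul', hy, nsmul_zero]), hσa r hr y hy]
  have hqr : q ≠ r := fun e => hqS.2.1 (e ▸ hr)
  have hF0 : ∀ {z : ((ratCurve W).toAffine⁄Qb).Point}, r ^ (M + 1 + a) • z = 0 → F • z = σ • z :=
    fun {z} hz => hF00 r hr hz
  obtain ⟨hQ, hU', hσY⟩ := hQU r hr i
  have hFQ : F • Q r i = σ • Q r i := by
    have e := congrArg Subtype.val (Equiv.congr_fun
      (congrFun (congrArg Prod.snd hker) (⟨r, hr⟩, i)) ⟨Q r i, hQ⟩)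
    replace e : (F⁻¹ * σ) • Q r i = Q r i := e
    rwa [mul_smul, inv_smul_eq_iff, eq_comm] at e
  have hU'L : r ^ (M + 1 + a) • U' r i = 0 := by
    rw [add_comm (M + 1), pow_add, mul_nsmul', hU', hU r hr]
  have hFY : F • (r ^ a • Q r i - U' r i) = r ^ a • Q r i - U' r i := by
    rw [FA.Local.gal_smul_sub (ratCurve W) F, smul_nat W F, hFQ, hF0 hU'L, ← smul_nat W σ,
      ← FA.Local.gal_smul_sub (ratCurve W) σ, hσY]
  obtain ⟨R, hR⟩ := FA.BashmakovDensity.exists_red_eq_of_fixed hgood hA hF hFY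
  have hno : ∀ X : (W.map (Int.castRingHom (ZMod q))).toAffine.Point,
      r ^ (M + 1) • X = 0 → r ^ M • X = 0 := fun X hX => by
    by_contra hX'
    obtain ⟨T, hT0, hFT, hT'⟩ :=
      FA.OrderDensity.exists_fixed_torsion (hS r hr) hgood hqr hX hX' hA hF
    refine hT' (hfix r hr T hT0 ((hF0 ?_).symm.trans hFT))
    rw [add_comm (M + 1), pow_add, mul_nsmul', hT0, nsmul_zero]
  have e : r ^ (M + 1) • (r ^ a • Q r i - U' r i) = up W (P i) - U r i := by
    rw [nsmul_sub, ← mul_nsmul', ← pow_add, hQ, hU']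
  rw [← e, map_nsmul, ← hR, ← map_nsmul, addOrderOf_injective _ (mapHom_injective _ _),
    pow_succ', mul_nsmul']
  exact fun hd => FA.OrderDensity.not_dvd_addOrderOf_nsmul (hS r hr) hno R (hd.trans
    (addOrderOf_dvd_of_nsmul_eq_zero (by rw [smul_comm, addOrderOf_nsmul_eq_zero, nsmul_zero])))

/-- The same outside any finite set. -/
theorem exists_prime_prescribed_set {S : Finset ℕ} (hS : ∀ r ∈ S, r.Prime) {ι : Type*} [Fintype ι]
    {P : ι → (ratCurve W).toAffine.Point} (hP : LinearIndependent ℤ P) (a : ℕ)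
    {U : ℕ → ι → ((ratCurve W).toAffine⁄Qb).Point} (hU : ∀ r ∈ S, ∀ i, r ^ a • U r i = 0)
    (S' : Finset ℕ) :
    ∃ q, ∃ _ : Fact q.Prime, q ∉ S' ∧ q ∉ S ∧ ∃ A : ValuationSubring Qb, ∃ _ : CharP (Res A) q,
      ∃ _ : (redCurve A ((ratCurve W)⁄Qb).toAffine (intCoeff_ratCurve W A)).IsElliptic,
      ∃ (hA : A.LiesOverPrime q) (hgood : W.IsGoodPrimeFor q), ∀ r ∈ S, ∀ i, ¬ r ∣ addOrderOf
        (redHom (intCoeff_ratCurve W A) (valuation_Δ_ratCurve W Fact.out hA hgood)
          (up W (P i) - U r i)) := by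
  obtain ⟨q, h, -, hqS', hqS, A, hc, he, hA, hg, -, hq⟩ :=
    exists_prime_prescribed_set_avoid W hS hP a hU S'
    (density_zero_of_finite Set.finite_empty)
  exact ⟨q, h, hqS', hqS, A, hc, he, hA, hg, hq⟩

end FA.SubgroupDetection

end
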