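import Fermat.Agent.SubgroupDetection.Translations
import Fermat.Agent.Bashmakov.Scalar
import Fermat.Agent.Root.SummaryBashmakovAdelic

/-!
# Kummer translations fixing the torsion of a whole level

At the level `pⁿ e`, `p ∤ e`, some `τ` commutes on all the torsion of the level with a subgroup of
index at most two and satisfies a fixed quadratic equation on the `pⁿ`-torsion: a scalar which is
one at the other primes, or a squared Frobenius if the curve is exceptional. Its commutators with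
squares of translations fix the level and translate by a bounded multiple of every translation.
-/

set_option autoImplicit false
set_option linter.style.haveILetI false

noncomputable section

open WeierstrassCurve WeierstrassCurve.Affine FA.Frob FA.EC FA.PointDiv
open scoped WeierstrassCurve.Affine Classical

local notation "Qb" => AlgebraicClosure ℚ
local notation "GQ" => AlgebraicClosure ℚ ≃ₐ[ℚ] AlgebraicClosure ℚ

namespace FA.SubgroupDetection

variable (W : WeierstrassCurve ℤ) [(ratCurve W).IsElliptic] {p : ℕ} [hp : Fact p.Prime]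

/-- **An element as in `exists_commuting_quadratic`, commuting on the torsion of a whole level.** -/
theorem exists_commuting_level :
    ∃ (H : Subgroup GQ) (a q : ℤ), (H = ⊤ ∨ H.index = 2) ∧ q + 1 - a ≠ 0 ∧
      ∀ n e : ℕ, e ≠ 0 → ¬ p ∣ e → ∃ τ : GQ,
      (∀ σ ∈ H, ∀ y : ((ratCurve W).toAffine⁄Qb).Point,
        (p ^ n * e) • y = 0 → σ • τ • y = τ • σ • y) ∧
      ∀ y : ((ratCurve W).toAffine⁄Qb).Point, p ^ n • y = 0 →
        τ • τ • y - a • τ • y + q • y = 0 := by
  have hW : W.IsIntegralModelOf (ratCurve W) := ⟨1, one_smul _ _⟩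
  by_cases hexc : ∃ d : ℤ, Squarefree d ∧ d ≠ 1 ∧ ∀ l : ℕ, ∀ [Fact l.Prime],
      (∃ C : VariableChange ℚ_[l],
        HasGoodReduction ℤ_[l] (C • (ratCurve W).map (algebraMap ℚ ℚ_[l]))) →
      ¬ IsSquare (d : ZMod l) → (ratCurve W).LFunction l = 0
  · obtain ⟨d, hd, hd1, h⟩ := hexc
    obtain ⟨s, H, hs, hH, hopen, hfix⟩ := FA.OpenImageAll.exists_index_two_of_sqrt hd hd1
    have hE := FA.CMStructure.isExceptional_of_curve (E := ratCurve W) (W := W) hW hd hd1 h
    obtain ⟨l, hlb, hl⟩ := Nat.exists_infinite_primes (p + W.Δ.natAbs + 1)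
    have hgood : W.IsGoodPrimeFor l := fun e => by
      have := Nat.le_of_dvd (Int.natAbs_pos.mpr (Δ_ne_zero_of_model hW)) (Int.natCast_dvd.mp e)
      omega
    haveI := Fact.mk hl
    obtain ⟨A, hA⟩ := FA.Deform.exists_liesOverPrime hl
    obtain ⟨F, hF⟩ := FA.Deform.exists_isFrobeniusAt hl hA
    set t := W.apOfModel l
    have hb : t ^ 2 ≤ 4 * (l : ℤ) := by
      rw [show t = W.apOfModel l from rfl, ← FA.Root.LFunction_apply_prime _ W hW hl hgood]
      exact FA.Summary.hasse_LFunction _ W 1 (one_smul _ _) hl hgood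
    refine ⟨H, t ^ 2 - 2 * l, (l : ℤ) ^ 2, Or.inr hH, ?_,
      fun n e he _ => ⟨F * F, ?_, fun y hy => ?_⟩⟩
    · have h2 : (2 : ℤ) ≤ l := by exact_mod_cast hl.two_le
      nlinarith
    · intro σ hσ y hy
      exact FA.Exceptional.smul_comm_of_fixed hd.ne_zero hs hH hopen hfix hE.vanish hσ
        (Subgroup.mul_self_mem_of_index_two hH F) (isOfFinAddOrder_iff_nsmul_eq_zero.mpr
          ⟨p ^ n * e, Nat.mul_pos (pow_pos hp.out.pos n) (Nat.pos_of_ne_zero he), hy⟩)
    · have hr := (FA.RT.Tate.frobenius_relations (W := W) (p := p) hl hA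
        (show l ≠ p by omega) hgood hF).1 n
      have h0 : ∀ z : ((ratCurve W).toAffine⁄Qb).Point, p ^ n • z = 0 →
          F • F • z = t • F • z - (l : ℤ) • z := fun z hz => by
        rw [← sub_eq_zero, ← hr z hz]; abel
      have h1 : p ^ n • (F • y) = 0 := by
        rw [← FA.RT.Tate.gal_smul_nsmul, hy]; exact FA.Local.gal_smul_zero _ F
      have h2 : p ^ n • (F • F • y) = 0 := by
        rw [← FA.RT.Tate.gal_smul_nsmul, h1]; exact FA.Local.gal_smul_zero _ F
      rw [mul_smul, mul_smul, h0 _ h2, h0 _ h1, h0 _ hy]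
      generalize F • y = u
      module
  · obtain ⟨m, hm, hmN⟩ := (FA.Summary.serreOpenImage_adelic_iff (ratCurve W)
      (inst := instDecEqAlgebraicClosureRat)).mpr hexc
    set c : ℤ := 1 + (m : ℤ) * p with hc
    refine ⟨⊤, 2 * c, c ^ 2, Or.inl rfl, ?_, fun n e he hpe => ?_⟩
    · rw [show c ^ 2 + 1 - 2 * c = ((m : ℤ) * p) ^ 2 by rw [hc]; ring]
      exact pow_ne_zero _ (mul_ne_zero (by exact_mod_cast hm.ne')
        (by exact_mod_cast hp.out.ne_zero))
    obtain ⟨u, v, huv⟩ : IsCoprime (e : ℤ) ((p : ℤ) ^ n) := by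
      rw [← Nat.cast_pow]
      exact Nat.isCoprime_iff_coprime.mpr
        (((hp.out.coprime_iff_not_dvd.mpr hpe).symm).pow_right n)
    -- `c` at `p` and `1` at the other primes
    set c' : ℤ := 1 + (m : ℤ) * p * (u * e) with hc'
    have hcop : IsCoprime c' ((p ^ n * e : ℕ) : ℤ) := by
      rw [Nat.cast_mul, Nat.cast_pow]
      exact IsCoprime.mul_right (IsCoprime.pow_right ⟨1, -((m : ℤ) * (u * e)), by rw [hc']; ring⟩)
        ⟨1, -((m : ℤ) * p * u), by rw [hc']; ring⟩
    obtain ⟨τ, hτ⟩ := FA.Bashmakov.exists_scalar_level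
      (hmN _ (mul_ne_zero (pow_ne_zero _ hp.out.ne_zero) he)) (c := c')
      ⟨(p : ℤ) * (u * e), by rw [hc']; ring⟩ hcop
    have hτ' : ∀ y : ((ratCurve W).toAffine⁄Qb).Point, (p ^ n * e) • y = 0 → τ • y = c' • y := hτ
    refine ⟨τ, fun σ _ y hy => ?_, fun y hy => ?_⟩
    · rw [hτ' y hy, hτ' (σ • y) (by
        rw [← FA.RT.Tate.gal_smul_nsmul, hy]; exact FA.Local.gal_smul_zero _ σ),
        FA.RT.Tate.gal_smul_zsmul]
    · have h0 : ((p : ℤ) ^ n) • y = 0 := by rw [← Nat.cast_pow, natCast_zsmul, hy]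
      have hy' : τ • y = c • y := by
        rw [hτ' y (by rw [mul_comm, mul_nsmul', hy, nsmul_zero]),
          show c' = c - (m : ℤ) * p * v * (p : ℤ) ^ n by
            rw [hc', hc]; linear_combination (m : ℤ) * p * huv,
          sub_smul, mul_zsmul, h0, zsmul_zero, sub_zero]
      rw [hy', FA.RT.Tate.gal_smul_zsmul, hy']
      module

/-- **Translations fixing the torsion of a whole level**: for a constant `D` every family of
translations by points killed by `p ^ (n - D)` of `pⁿ`-th parts is induced by an element fixing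
`E[pⁿ e]`, for every `e` prime to `p`. -/
theorem exists_bound_translations_level {ι : Type*} [Fintype ι]
    {P : ι → (ratCurve W).toAffine.Point} (hP : LinearIndependent ℤ P) :
    ∃ D : ℕ, ∀ n e : ℕ, e ≠ 0 → ¬ p ∣ e → ∀ Q : ι → ((ratCurve W).toAffine⁄Qb).Point,
      (∀ i, p ^ n • Q i = up W (P i)) →
      ∀ t : ι → ((ratCurve W).toAffine⁄Qb).Point, (∀ i, p ^ (n - D) • t i = 0) → ∃ g : GQ,
        (∀ y : ((ratCurve W).toAffine⁄Qb).Point, (p ^ n * e) • y = 0 → g • y = y) ∧
          ∀ i, g • Q i = Q i + t i := by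
  obtain ⟨B, hB⟩ := exists_bound_translations_indep W (p := p) hP
  obtain ⟨H, a, q, hH, hn, hτ⟩ := exists_commuting_level W (p := p)
  set z : ℤ := 2 * (q + 1 - a) with hz
  have hz0 : z ≠ 0 := mul_ne_zero two_ne_zero hn
  obtain ⟨v, m, hm, hzm⟩ :=
    Nat.exists_eq_pow_mul_and_not_dvd (Int.natAbs_ne_zero.mpr hz0) p hp.out.ne_one
  refine ⟨B + v, fun n e he hpe Q hQ t ht => ?_⟩
  rcases Nat.lt_or_ge n (B + v) with hlt | hge
  · refine ⟨1, fun y _ => one_smul _ _, fun i => ?_⟩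
    have := ht i
    rw [Nat.sub_eq_zero_of_le hlt.le, pow_zero, one_nsmul] at this
    rw [one_smul, this, add_zero]
  obtain ⟨c, d, hcd⟩ : IsCoprime (m : ℤ) ((p : ℤ) ^ n) := by
    rw [← Nat.cast_pow]
    exact Nat.isCoprime_iff_coprime.mpr (((hp.out.coprime_iff_not_dvd.mpr hm).symm).pow_right n)
  choose w hw using fun i => exists_div W (pow_ne_zero v hp.out.ne_zero) (c • t i)
  obtain ⟨τ, hcomm, hquad⟩ := hτ n e he hpe
  set act := FA.Bashmakov.pointAct (ratCurve W)
  have hwB : ∀ i, p ^ (n - B) • w i = 0 := fun i => by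
    rw [show n - B = n - (B + v) + v by omega, pow_add, mul_nsmul', hw, smul_comm, ht, zsmul_zero]
  have ht0 : ∀ i, p ^ n • t i = 0 := fun i => by
    rw [show n = B + v + (n - (B + v)) by omega, pow_add, mul_nsmul', ht, nsmul_zero]
  obtain ⟨y, hy⟩ : ∃ y : ι → ((ratCurve W).toAffine⁄Qb).Point,
      ∀ i, z • y i = t i ∧ p ^ (n - B) • y i = 0 := by
    refine ⟨fun i => z.sign • w i, fun i => ⟨?_, by rw [smul_comm, hwB, zsmul_zero]⟩⟩
    rw [← mul_zsmul, mul_comm, Int.sign_mul_self_eq_natAbs, hzm, Nat.cast_mul, mul_comm,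
      mul_zsmul, natCast_zsmul, natCast_zsmul, hw, ← natCast_zsmul, ← mul_zsmul,
      show (m : ℤ) * c = 1 - d * (p : ℤ) ^ n by linear_combination hcd, sub_smul, one_zsmul,
      mul_zsmul, ← Nat.cast_pow, natCast_zsmul, ht0, zsmul_zero, sub_zero]
  have hzy := fun i => (hy i).1
  have hyB := fun i => (hy i).2
  obtain ⟨s, hs⟩ : ∃ s : ι → ((ratCurve W).toAffine⁄Qb).Point,
      ∀ i, s i = -(act τ (y i) + (1 - a) • y i) := ⟨_, fun i => rfl⟩
  have hsB : ∀ i, p ^ (n - B) • s i = 0 := fun i => by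
    rw [hs, neg_nsmul, nsmul_add, smul_comm, ← map_nsmul, hyB, map_zero, zsmul_zero, add_zero,
      neg_zero]
  obtain ⟨g₀, hg₀, hg₀Q⟩ := hB n Q hQ s hsB
  have hkill : ∀ {x : ((ratCurve W).toAffine⁄Qb).Point}, p ^ (n - B) • x = 0 → p ^ n • x = 0 :=
    fun {x} hx => by rw [show n = B + (n - B) by omega, pow_add, mul_nsmul', hx, nsmul_zero]
  have hg : ∀ x : ((ratCurve W).toAffine⁄Qb).Point, p ^ n • x = 0 → act (g₀ * g₀) x = x :=
    fun x hx => by
      rw [FA.Bashmakov.act_mul, show act g₀ x = x from hg₀ x hx]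
      exact hg₀ x hx
  have hgH : g₀ * g₀ ∈ H := by
    rcases hH with rfl | hH
    · exact Subgroup.mem_top _
    · exact Subgroup.mul_self_mem_of_index_two hH g₀
  set g := g₀ * g₀
  have hinv : ∀ (σ : GQ) x, act σ (act σ⁻¹ x) = x := fun σ x => by
    simpa using FA.Bashmakov.act_inv_act act σ⁻¹ x
  refine ⟨τ * g * (g * τ)⁻¹, fun x hx => ?_, fun i => ?_⟩
  · show act (τ * g * (g * τ)⁻¹) x = x
    set x' := act (g * τ)⁻¹ x
    have hx' : (p ^ n * e) • x' = 0 := by rw [← map_nsmul, hx, map_zero]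
    rw [FA.Bashmakov.act_mul, FA.Bashmakov.act_mul, show act τ (act g x') = act g (act τ x') from
      (hcomm g hgH x' hx').symm, ← FA.Bashmakov.act_mul, hinv]
  show act (τ * g * (g * τ)⁻¹) (Q i) = Q i + t i
  set d₀ := act τ (Q i) - Q i with hd₀
  have hd₀k : p ^ n • d₀ = 0 := by
    rw [nsmul_sub, ← map_nsmul, hQ, show act τ (up W (P i)) = up W (P i) from smul_up W τ (P i),
      sub_self]
  have hgQ : act g (Q i) = Q i + 2 • s i := by
    rw [FA.Bashmakov.act_mul, show act g₀ (Q i) = Q i + s i from hg₀Q i, map_add,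
      show act g₀ (Q i) = Q i + s i from hg₀Q i,
      show act g₀ (s i) = s i from hg₀ _ (hkill (hsB i)), two_nsmul, add_assoc]
  have hc : ∀ x : ((ratCurve W).toAffine⁄Qb).Point, p ^ n • x = 0 →
      act (τ * g * (g * τ)⁻¹) x = x := fun x hx => by
    have h1 : p ^ n • act (g * τ)⁻¹ x = 0 := by rw [← map_nsmul, hx, map_zero]
    conv_rhs => rw [← hinv (g * τ) x]
    rw [FA.Bashmakov.act_mul, FA.Bashmakov.act_mul, FA.Bashmakov.act_mul act g τ, hg _ h1,
      hg _ (by rw [← map_nsmul, h1, map_zero])]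
  have e1 : act (g * τ) (Q i) = Q i + (d₀ + 2 • s i) := by
    rw [FA.Bashmakov.act_mul, show act τ (Q i) = Q i + d₀ by rw [hd₀, add_sub_cancel], map_add,
      hgQ, hg _ hd₀k]
    abel
  have e2 : act (τ * g) (Q i) = Q i + d₀ + act τ (2 • s i) := by
    rw [FA.Bashmakov.act_mul, hgQ, map_add, show act τ (Q i) = Q i + d₀ by rw [hd₀, add_sub_cancel]]
  have e3 : act (τ * g * (g * τ)⁻¹) (Q i + (d₀ + 2 • s i)) = Q i + d₀ + act τ (2 • s i) := by
    rw [FA.Bashmakov.act_mul, ← e1, FA.Bashmakov.act_inv_act, e2]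
  rw [map_add, hc (d₀ + 2 • s i)
      (by rw [nsmul_add, hd₀k, smul_comm, hkill (hsB i), nsmul_zero, add_zero]),
    ← eq_sub_iff_add_eq] at e3
  rw [e3, ← hzy i, hz, map_nsmul]
  have hr : act τ (act τ (y i)) - a • act τ (y i) + q • y i = 0 := hquad _ (hkill (hyB i))
  rw [show act τ (s i) = -(act τ (act τ (y i)) + (1 - a) • act τ (y i)) by
      rw [hs i, map_neg, map_add, map_zsmul],
    show act τ (act τ (y i)) = a • act τ (y i) - q • y i by rw [← sub_eq_zero, ← hr]; abel,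
    hs i]
  module

/-- **Kummer theory with uniformly bounded index at every level.** -/
theorem exists_uniform_translations {ι : Type*} [Fintype ι]
    {P : ι → (ratCurve W).toAffine.Point} (hP : LinearIndependent ℤ P) :
    ∃ C : ℕ, 0 < C ∧ ∀ N : ℕ, N ≠ 0 → ∀ Q : ι → ((ratCurve W).toAffine⁄Qb).Point,
      (∀ i, N • Q i = up W (P i)) →
      ∀ t : ι → ((ratCurve W).toAffine⁄Qb).Point, (∀ i, N • t i = 0) → ∃ g : GQ,
        (∀ y : ((ratCurve W).toAffine⁄Qb).Point, N • y = 0 → g • y = y) ∧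
          ∀ i, g • Q i = Q i + C • t i := by
  haveI := FA.MordellWeil.mordell (ratCurve W)
  obtain ⟨M₁, hM₁⟩ := FA.Bashmakov.exists_bound_neg_commutator W
  obtain ⟨M₂, hM₂⟩ := FA.LinearDependence.exists_bound_translations_family W ι
  obtain ⟨M₃, hM₃⟩ := FA.LinearDependence.exists_bound_independent_family hP
  set M := max 2 (max M₁ (max M₂ M₃))
  set S := (Finset.range (M + 1)).filter Nat.Prime
  have hex : ∀ r : S, ∃ D : ℕ, ∀ n e : ℕ, e ≠ 0 → ¬ r.1 ∣ e →
      ∀ Q : ι → ((ratCurve W).toAffine⁄Qb).Point, (∀ i, r.1 ^ n • Q i = up W (P i)) →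
      ∀ t : ι → ((ratCurve W).toAffine⁄Qb).Point, (∀ i, r.1 ^ (n - D) • t i = 0) → ∃ g : GQ,
        (∀ y : ((ratCurve W).toAffine⁄Qb).Point, (r.1 ^ n * e) • y = 0 → g • y = y) ∧
          ∀ i, g • Q i = Q i + t i := fun r => by
    haveI := Fact.mk (Finset.mem_filter.mp r.2).2
    exact exists_bound_translations_level W hP
  choose D hD using hex
  set C := ∏ r : S, r.1 ^ D r
  have hC : 0 < C := Finset.prod_pos fun r _ => pow_pos (Finset.mem_filter.mp r.2).2.pos _
  refine ⟨C, hC, fun N hN Q hQ t ht => ?_⟩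
  set act := FA.Bashmakov.pointAct (ratCurve W)
  refine FA.Bashmakov.exists_translations_glue_one act hN
    (fun i σ => by rw [hQ i]; exact smul_up W σ (P i)) (fun i => C • t i)
    fun p n e hp hNe he => ?_
  have he0 : e ≠ 0 := fun h => hN (by rw [hNe, h, mul_zero])
  have hQe : ∀ i, p ^ n • (e • Q i) = up W (P i) := fun i => by rw [← mul_nsmul', ← hNe, hQ i]
  haveI := Fact.mk hp
  rcases Nat.lt_or_ge M p with hlt | hle
  · have hlt' : 2 < p ∧ M₁ < p ∧ M₂ < p ∧ M₃ < p := by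
      simpa only [M, max_lt_iff] using hlt
    exact FA.Bashmakov.exists_act_commutator_sq act (hp.odd_of_ne_two (by omega)) hp
      (Q := fun i => e • Q i) (fun i σ => by rw [hQe]; exact smul_up W σ (P i))
      (P := fun k => ∀ y, N • y = 0 → act k y = y)
      (fun g => hM₁ p hp hlt'.2.1 n N hN g)
      (fun v => hM₂ p hlt'.2.2.1 n P (hM₃ p hp hlt'.2.2.2) _ hQe v)
      (t := fun i => e • C • t i)
      fun i => by rw [← mul_nsmul', ← hNe, smul_comm, ht, nsmul_zero]
  · have hpS : p ∈ S := Finset.mem_filter.mpr ⟨Finset.mem_range.mpr (by omega), hp⟩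
    obtain ⟨k, hk⟩ := (Finset.dvd_prod_of_mem (fun r : S => r.1 ^ D r)
      (Finset.mem_univ (⟨p, hpS⟩ : S)) : p ^ D ⟨p, hpS⟩ ∣ C)
    obtain ⟨g, hg, hgQ⟩ := hD ⟨p, hpS⟩ n e he0 he (fun i => e • Q i) hQe
      (fun i => e • C • t i) fun i => by
        rw [← mul_nsmul', ← mul_nsmul']
        refine addOrderOf_dvd_iff_nsmul_eq_zero.mp
          ((addOrderOf_dvd_of_nsmul_eq_zero (ht i)).trans ?_)
        rw [hNe, show C = _ from hk]
        exact (mul_dvd_mul (pow_dvd_pow p (show n ≤ n - D ⟨p, hpS⟩ + D ⟨p, hpS⟩ by omega))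
          (dvd_mul_right e k)).trans (dvd_of_eq (by rw [pow_add]; ring))
    exact ⟨g, fun y hy => hg y (by rw [← hNe]; exact hy), hgQ⟩

end FA.SubgroupDetection

end
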